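import Mathlib
import Fermat.Prelude.Def_FLTPrelim_Ramification

set_option autoImplicit false

/-!
# The residue field of a place of `ℚ̄` above `ℓ` is an algebraic closure of `𝔽_ℓ`
-/

open Polynomial

namespace Fermat.Agent.ResField

section General

variable {L : Type*} [Field L]

/-- A valuation subring is integrally closed. -/
theorem mem_of_monic (A : ValuationSubring L) {x : L} {f : A[X]} (hf : f.Monic)
    (hx : f.eval₂ A.subtype x = 0) : x ∈ A := by
  have hint : IsIntegral A x := ⟨f, hf, hx⟩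
  obtain ⟨y, hy⟩ := IsIntegrallyClosed.isIntegral_iff.mp hint
  rw [← hy]
  exact y.2

instance isAlgClosed_residueField (A : ValuationSubring L) [IsAlgClosed L] :
    IsAlgClosed (IsLocalRing.ResidueField A) := by
  refine IsAlgClosed.of_exists_root _ fun p hp hirr => ?_
  obtain ⟨q, hq, hdeg, hmon⟩ := Polynomial.lifts_and_degree_eq_and_monic
    ((Polynomial.mem_lifts p).mpr (Polynomial.map_surjective _
      IsLocalRing.residue_surjective p)) hp
  have hd : (q.map A.subtype).degree ≠ 0 := by
    rw [hmon.degree_map, hdeg]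
    exact hirr.degree_pos.ne'
  obtain ⟨x, hx⟩ := IsAlgClosed.exists_root _ hd
  have hxA : x ∈ A := by
    refine mem_of_monic A hmon ?_
    rw [← eval_map]
    exact hx
  refine ⟨IsLocalRing.residue A ⟨x, hxA⟩, ?_⟩
  rw [← hq, eval_map, eval₂_at_apply]
  have h1 : q.eval (⟨x, hxA⟩ : A) = 0 := by
    apply Subtype.ext
    have : (A.subtype (q.eval (⟨x, hxA⟩ : A)) : L) = (q.map A.subtype).eval x := by
      rw [eval_map, ← eval₂_at_apply]
      rfl
    simpa [hx.eq_zero] using this
  rw [h1, map_zero]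

end General

section Over

variable {L : Type*} [Field L] {A : ValuationSubring L} {ℓ : ℕ}

theorem charP_residueField (hℓ : ℓ.Prime) (hA : A.LiesOverPrime ℓ) :
    CharP (IsLocalRing.ResidueField A) ℓ := by
  have h0 : ((ℓ : ℕ) : IsLocalRing.ResidueField A) = 0 := by
    have h1 : (ℓ : L) ∈ A.nonunits := hA
    rw [ValuationSubring.mem_nonunits_iff_exists_mem_maximalIdeal] at h1
    obtain ⟨h2, h3⟩ := h1
    have h4 : (⟨(ℓ : L), h2⟩ : A) = ((ℓ : ℕ) : A) := rfl
    rw [h4] at h3
    rw [← map_natCast (IsLocalRing.residue A), IsLocalRing.residue_eq_zero_iff]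
    exact h3
  exact (CharP.charP_iff_prime_eq_zero hℓ).mpr h0

variable [Algebra ℚ L] [Algebra.IsAlgebraic ℚ L]

/-- every element of the residue field is a root of a nonzero polynomial over `𝔽_ℓ` -/
theorem exists_polynomial_zmod (hℓ : ℓ.Prime) (y : IsLocalRing.ResidueField A) :
    ∃ g : ℤ[X], g.map (Int.castRingHom (ZMod ℓ)) ≠ 0 ∧ aeval y g = 0 := by
  obtain ⟨⟨x, hx⟩, rfl⟩ := IsLocalRing.residue_surjective y
  have : CharZero L := algebraRat.charZero L
  have halg : IsAlgebraic ℤ x :=
    (IsFractionRing.isAlgebraic_iff ℤ ℚ L).mpr (Algebra.IsAlgebraic.isAlgebraic x)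
  obtain ⟨f, hf, hfx⟩ := halg
  have hprim := f.isPrimitive_primPart
  refine ⟨f.primPart, ?_, ?_⟩
  · intro h0
    have : (C (ℓ : ℤ)) ∣ f.primPart := by
      rw [Polynomial.C_dvd_iff_dvd_coeff]
      intro i
      have h1 := congrArg (fun q => Polynomial.coeff q i) h0
      simp only [coeff_map, coeff_zero, eq_intCast] at h1
      exact (ZMod.intCast_zmod_eq_zero_iff_dvd _ _).mp h1
    have hu := hprim _ this
    rw [Int.isUnit_iff] at hu
    have := hℓ.two_le
    omega
  · have h1 : aeval x f.primPart = 0 := by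
      have h2 := f.eq_C_content_mul_primPart
      rw [h2, map_mul, aeval_C] at hfx
      rcases mul_eq_zero.mp hfx with h3 | h3
      · exfalso
        have : CharZero L := algebraRat.charZero L
        rw [eq_intCast, Int.cast_eq_zero, content_eq_zero_iff] at h3
        exact hf h3
      · exact h3
    have h4 : aeval (⟨x, hx⟩ : A) f.primPart = 0 := by
      apply Subtype.ext
      have h5 : A.subtype (aeval (⟨x, hx⟩ : A) f.primPart) = aeval x f.primPart := by
        rw [aeval_def, aeval_def, hom_eval₂]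
        congr 1
      rw [h1] at h5
      exact h5
    have h6 : aeval (IsLocalRing.residue A ⟨x, hx⟩) f.primPart =
        IsLocalRing.residue A (aeval (⟨x, hx⟩ : A) f.primPart) := by
      rw [aeval_def, aeval_def, hom_eval₂]
      congr 1
    rw [h6, h4, map_zero]

theorem isAlgebraic_residueField (hℓ : ℓ.Prime) [Algebra (ZMod ℓ) (IsLocalRing.ResidueField A)] :
    Algebra.IsAlgebraic (ZMod ℓ) (IsLocalRing.ResidueField A) := by
  refine ⟨fun y => ?_⟩
  obtain ⟨g, hg, hgy⟩ := exists_polynomial_zmod hℓ y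
  refine ⟨g.map (Int.castRingHom (ZMod ℓ)), hg, ?_⟩
  rw [aeval_def, eval₂_map]
  rw [aeval_def] at hgy
  rw [← hgy]
  congr 1
  exact RingHom.ext_int _ _

/-- The residue field of a place of `ℚ̄` above `ℓ` is an algebraic closure of `𝔽_ℓ`. -/
theorem isAlgClosure_residueField [IsAlgClosed L] (hℓ : ℓ.Prime)
    [Algebra (ZMod ℓ) (IsLocalRing.ResidueField A)] [Fact ℓ.Prime] :
    IsAlgClosure (ZMod ℓ) (IsLocalRing.ResidueField A) :=
  ⟨inferInstance, isAlgebraic_residueField hℓ⟩

/-- There is a surjective local ring homomorphism `A → AlgebraicClosure 𝔽_ℓ`. -/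
theorem exists_surjective_localHom [IsAlgClosed L] [Fact ℓ.Prime] (hA : A.LiesOverPrime ℓ) :
    ∃ φ : A →+* AlgebraicClosure (ZMod ℓ), IsLocalHom φ ∧ Function.Surjective φ := by
  have hℓ : ℓ.Prime := Fact.out
  have : CharZero L := algebraRat.charZero L
  have hchar := charP_residueField hℓ hA
  let _ : Algebra (ZMod ℓ) (IsLocalRing.ResidueField A) := ZMod.algebra _ ℓ
  have := isAlgClosure_residueField (A := A) hℓ
  let e : IsLocalRing.ResidueField A ≃ₐ[ZMod ℓ] AlgebraicClosure (ZMod ℓ) :=
    IsAlgClosure.equiv (ZMod ℓ) _ _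
  refine ⟨(e : IsLocalRing.ResidueField A →+* AlgebraicClosure (ZMod ℓ)).comp
    (IsLocalRing.residue A), ?_, ?_⟩
  · constructor
    intro a ha
    by_contra h0
    have h1 : IsLocalRing.residue A a = 0 :=
      (IsLocalRing.residue_eq_zero_iff a).mpr ((IsLocalRing.mem_maximalIdeal a).mpr h0)
    rw [RingHom.comp_apply, h1, map_zero] at ha
    exact ha.ne_zero rfl
  · exact e.surjective.comp IsLocalRing.residue_surjective

end Over

end Fermat.Agent.ResField
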