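import Fermat.Agent.EllRed.FrobeniusQbar
import Fermat.Agent.FrobTrace.Main

set_option autoImplicit false

/-!
# `E[n]` for `W/ℤ` over `ℚ̄`: unconditional statements

`frobCharpolyInputAll : FrobCharpolyInputAll` discharges the hypothesis of `FrobeniusQbar.lean`.
-/

open WeierstrassCurve WeierstrassCurve.Affine WeierstrassCurve.Affine.Point
open Polynomial
open Fermat.Agent.RedHom Fermat.Agent.EllTorsion Fermat.Agent.Cyclotomic

namespace Fermat.Agent.EllRed

local notation "Qbar" => AlgebraicClosure ℚ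
local notation "Γℚ" => (AlgebraicClosure ℚ ≃ₐ[ℚ] AlgebraicClosure ℚ)

theorem frobCharpolyInputAll : FrobCharpolyInputAll := by
  intro ℓ _ k _ _ _ _ U hU n hn _ _ τ hτ
  have hcard : Fintype.card (ZMod ℓ) = ℓ := ZMod.card ℓ
  have h := FrobTrace.charpoly_galoisRepModuleEnd_frob (W := U) (k := k) hU hn τ
    (by rw [hcard]; exact hτ)
  rw [h, hcard]

variable (W : WeierstrassCurve ℤ)

section Frobenius

variable {ℓ : ℕ} (hℓ : ℓ.Prime) (hW : W.IsGoodPrimeFor ℓ) {n : ℕ} (hn : ¬ ℓ ∣ n)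
  (A : ValuationSubring Qbar) (hA : A.LiesOverPrime ℓ) {σ : Γℚ} (hσ : A.IsFrobeniusAt σ ℓ)

include hℓ hW hn hA hσ

theorem charpoly_frob
    [Module.Free (ZMod n) (Submodule.torsionBy ℤ ((W.map (Int.castRingHom ℚ))⁄Qbar).Point n)]
    [Module.Finite (ZMod n) (Submodule.torsionBy ℤ ((W.map (Int.castRingHom ℚ))⁄Qbar).Point n)] :
    LinearMap.charpoly (galoisRepModuleEnd ℚ (W.map (Int.castRingHom ℚ)) n σ) =
      X ^ 2 - C ((W.apOfModel ℓ : ℤ) : ZMod n) * X + C ((ℓ : ℕ) : ZMod n) :=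
  charpoly_frobenius frobCharpolyInputAll W hℓ hW hn A hA hσ

theorem galoisTrace_frob :
    galoisTrace ℚ (W.map (Int.castRingHom ℚ)) n σ = ((W.apOfModel ℓ : ℤ) : ZMod n) :=
  galoisTrace_frobenius frobCharpolyInputAll W hℓ hW hn A hA hσ

theorem det_frob :
    LinearMap.det (galoisRepModuleEnd ℚ (W.map (Int.castRingHom ℚ)) n σ) =
      ((ℓ : ℕ) : ZMod n) :=
  det_frobenius frobCharpolyInputAll W hℓ hW hn A hA hσ

theorem cayley_frob
    (x : Submodule.torsionBy ℤ ((W.map (Int.castRingHom ℚ))⁄Qbar).Point n) :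
    σ • σ • x - (W.apOfModel ℓ) • σ • x + (ℓ : ℤ) • x = 0 :=
  cayley_frobenius frobCharpolyInputAll W hℓ hW hn A hA hσ x

end Frobenius

/-- **The determinant of the Galois action on `E[n]` is the cyclotomic character.** -/
theorem det_galoisRepModuleEnd (hΔ : W.Δ ≠ 0) (n : ℕ) [NeZero n] (σ : Γℚ) :
    LinearMap.det (galoisRepModuleEnd ℚ (W.map (Int.castRingHom ℚ)) n σ) =
      (cyc n σ : ZMod n) :=
  det_eq_cyc frobCharpolyInputAll W hΔ n σ

section Residual

variable {W} {p : ℕ} [Fact p.Prime]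
  (hcard : Nat.card (Submodule.torsionBy ℤ
    ((W.map (Int.castRingHom ℚ))⁄(AlgebraicClosure ℚ)).Point p) = p ^ 2)
  (hker : GaloisFactorsThroughFiniteLevel
    (WeierstrassCurve.Affine.Point.galoisRepModuleEnd (K := AlgebraicClosure ℚ) ℚ
      (W.map (Int.castRingHom ℚ)) p))

theorem residual_charpoly_frob {ℓ : ℕ} (hℓ : ℓ.Prime) (hℓp : ℓ ≠ p)
    (hW : W.IsGoodPrimeFor ℓ) (A : ValuationSubring Qbar) (hA : A.LiesOverPrime ℓ) {σ : Γℚ}
    (hσ : A.IsFrobeniusAt σ ℓ) :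
    LinearMap.charpoly (((W.map (Int.castRingHom ℚ)).residualGaloisRepOf p hcard hker).ρ σ) =
      X ^ 2 - C ((W.apOfModel ℓ : ℤ) : ZMod p) * X + C ((ℓ : ℕ) : ZMod p) :=
  residualGaloisRepOf_charpoly_frobenius frobCharpolyInputAll hcard hker hℓ hℓp hW A hA hσ

theorem residual_det (hΔ : W.Δ ≠ 0) (σ : Γℚ) :
    LinearMap.det (((W.map (Int.castRingHom ℚ)).residualGaloisRepOf p hcard hker).ρ σ) =
      (cyc p σ : ZMod p) :=
  residualGaloisRepOf_det frobCharpolyInputAll hcard hker hΔ σ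

theorem residual_isOdd (hΔ : W.Δ ≠ 0) :
    ((W.map (Int.castRingHom ℚ)).residualGaloisRepOf p hcard hker).IsOdd :=
  residualGaloisRepOf_isOdd frobCharpolyInputAll hcard hker hΔ

end Residual

end Fermat.Agent.EllRed
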