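import Fermat.Agent.EllRed.GoodTorsion
import Fermat.Prelude.Def_EllipticCurve_FrobeniusTrace
import Fermat.Prelude.Def_FLTPrelim_ModularRep

set_option autoImplicit false

/-!
# Equivariance of the reduction map, unramifiedness at primes of good reduction

* `PointRed.smul_map` : compatibility of reduction with automorphisms.
* `PointRed.smul_inertia`, `PointRed.smul_frobenius`.
* `smul_eq_of_mem_E0` : inertia fixes the points of `E₀[n]`, `n` prime to the residue
  characteristic.
* `galoisRepUnramifiedAt_of_good` : `E[n]` is unramified at the primes `q ∤ n` of good reduction.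
-/

open WeierstrassCurve WeierstrassCurve.Affine WeierstrassCurve.Affine.Point
open Polynomial
open scoped Pointwise
open Fermat.Agent.RedHom Fermat.Agent.EllTorsion

namespace Fermat.Agent.EllRed

section Local

variable {L k : Type*} [Field L] [Field k] {A : ValuationSubring L} {φ : A →+* k}

/-- A local homomorphism to a field only depends on the residue. -/
theorem map_eq_of_residue_eq [IsLocalHom φ] {a b : A}
    (h : IsLocalRing.residue A a = IsLocalRing.residue A b) : φ a = φ b := by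
  have h1 : a - b ∈ IsLocalRing.maximalIdeal A := by
    rw [← IsLocalRing.residue_eq_zero_iff, _root_.map_sub, h, sub_self]
  rw [← sub_eq_zero, ← _root_.map_sub]
  by_contra h2
  have h3 : IsUnit (a - b) := isUnit_of_map_unit φ _ (isUnit_iff_ne_zero.mpr h2)
  exact h1 h3

variable {K : Type*} [Field K] [Algebra K L]

theorem redTo_smul_inertia [IsLocalHom φ] {σ : L ≃ₐ[K] L} (hσ : σ ∈ A.inertiaSubgroupIn K) {a : L}
    {b : k} (h : RedTo φ a b) : RedTo φ (σ a) b := by
  obtain ⟨g, hg, rfl⟩ := hσ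
  obtain ⟨ha, rfl⟩ := h
  have h1 : IsLocalRing.residue A (g • (⟨a, ha⟩ : A)) = IsLocalRing.residue A ⟨a, ha⟩ := by
    have h2 : g • IsLocalRing.residue A ⟨a, ha⟩ = IsLocalRing.residue A ⟨a, ha⟩ := by
      have h3 : MulSemiringAction.toRingAut (A.decompositionSubgroup K)
          (IsLocalRing.ResidueField A) g = 1 := hg
      exact DFunLike.congr_fun h3 _
    rw [← h2]
    rfl
  have h4 := redTo_coe (φ := φ) (g • (⟨a, ha⟩ : A))
  rw [map_eq_of_residue_eq (φ := φ) h1] at h4
  exact h4

theorem redTo_smul_frobenius [IsLocalHom φ] {σ : L ≃ₐ[K] L} {q : ℕ} (hσ : A.IsFrobeniusAt σ q)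
    {a : L} {b : k} (h : RedTo φ a b) : RedTo φ (σ a) (b ^ q) := by
  obtain ⟨hσ, hq⟩ := hσ
  obtain ⟨ha, rfl⟩ := h
  have h1 : IsLocalRing.residue A ((⟨σ, hσ⟩ : A.decompositionSubgroup K) • (⟨a, ha⟩ : A)) =
      IsLocalRing.residue A (⟨a, ha⟩ ^ q) := by
    rw [_root_.map_pow, ← hq]
    rfl
  have h4 := redTo_coe (φ := φ) ((⟨σ, hσ⟩ : A.decompositionSubgroup K) • (⟨a, ha⟩ : A))
  rw [map_eq_of_residue_eq (φ := φ) h1, _root_.map_pow] at h4
  exact h4

theorem smul_mem_iff_of_mem_decomposition {σ : L ≃ₐ[K] L} (hσ : σ ∈ A.decompositionSubgroup K)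
    {x : L} : σ x ∈ A ↔ x ∈ A := by
  have h1 : σ • A = A := hσ
  constructor
  · intro h
    have h2 : σ x ∈ σ • A := by rw [h1]; exact h
    rw [ValuationSubring.mem_smul_pointwise_iff_exists] at h2
    obtain ⟨s, hs, hsx⟩ := h2
    have : s = x := σ.injective hsx
    rwa [← this]
  · intro h
    have h2 : σ x ∈ σ • A := by
      rw [ValuationSubring.mem_smul_pointwise_iff_exists]
      exact ⟨x, h, rfl⟩
    rwa [h1] at h2

theorem inertiaSubgroupIn_le {σ : L ≃ₐ[K] L} (hσ : σ ∈ A.inertiaSubgroupIn K) :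
    σ ∈ A.decompositionSubgroup K := by
  obtain ⟨g, -, rfl⟩ := hσ
  exact g.2

end Local

section Points

variable {L k : Type*} [Field L] [Field k] {A : ValuationSubring L} {φ : A →+* k}
  [DecidableEq L] [DecidableEq k]
  {R S : Type*} [CommRing R] [CommRing S] {W' : Affine R} [Algebra R S] [Algebra R L] [Algebra S L]
  [IsScalarTower R S L]
  {R' S' : Type*} [CommRing R'] [CommRing S'] {U' : Affine R'} [Algebra R' S'] [Algebra R' k]
  [Algebra S' k] [IsScalarTower R' S' k]

/-- Compatibility of the reduction of points with automorphisms. -/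
theorem pointRed_smul_map (σ : L ≃ₐ[S] L) (τ : k →ₐ[S'] k) (hA : ∀ x, σ x ∈ A → x ∈ A)
    (hστ : ∀ {a b}, RedTo φ a b → RedTo φ (σ a) (τ b)) {P : (W'⁄L).Point} {Q : (U'⁄k).Point}
    (hP : PointRed φ P Q) : PointRed φ (σ • P) (Point.map τ Q) := by
  rcases P with _ | ⟨x, y, hxy⟩
  · rw [← zero_def, pointRed_zero_iff] at hP
    subst hP
    rw [← zero_def, smul_zero, Point.map_zero, pointRed_zero_iff]
  · rw [algEquiv_smul_def, Point.map_some]
    rcases pointRed_some_iff.mp hP with ⟨hx, rfl⟩ | ⟨u, v, h', rfl, hu, hv⟩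
    · rw [Point.map_zero, pointRed_some_zero_iff]
      exact fun h ↦ hx (hA x h)
    · rw [Point.map_some, pointRed_some_some_iff]
      exact ⟨hστ hu, hστ hv⟩

end Points

section PointsField

variable {L k : Type*} [Field L] [Field k] {A : ValuationSubring L} {φ : A →+* k}
  [DecidableEq L] [DecidableEq k]
  {R S : Type*} [CommRing R] [Field S] {W' : Affine R} [Algebra R S] [Algebra R L] [Algebra S L]
  [IsScalarTower R S L] [IsLocalHom φ]

omit [DecidableEq k] in
/-- Inertia acts trivially on reductions. -/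
theorem pointRed_smul_inertia {σ : L ≃ₐ[S] L} (hσ : σ ∈ A.inertiaSubgroupIn S)
    {U : WeierstrassCurve k} {P : (W'⁄L).Point} {Q : U.toAffine.Point}
    (hP : PointRed φ P Q) : PointRed φ (σ • P) Q := by
  rcases P with _ | ⟨x, y, hxy⟩
  · rw [← zero_def, pointRed_zero_iff] at hP
    subst hP
    rw [← zero_def, smul_zero, pointRed_zero_iff]
  · rw [algEquiv_smul_def, Point.map_some]
    rcases pointRed_some_iff.mp hP with ⟨hx, rfl⟩ | ⟨u, v, h', rfl, hu, hv⟩
    · rw [pointRed_some_zero_iff]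
      exact fun h ↦ hx ((smul_mem_iff_of_mem_decomposition (inertiaSubgroupIn_le hσ)).mp h)
    · rw [pointRed_some_some_iff]
      exact ⟨redTo_smul_inertia hσ hu, redTo_smul_inertia hσ hv⟩

/-- Frobenius acts as `x ↦ x ^ q` on reductions. -/
theorem pointRed_smul_frobenius {R' S' : Type*} [CommRing R'] [CommRing S'] {U' : Affine R'}
    [Algebra R' S'] [Algebra R' k] [Algebra S' k] [IsScalarTower R' S' k]
    {σ : L ≃ₐ[S] L} {q : ℕ} (hσ : A.IsFrobeniusAt σ q) (τ : k →ₐ[S'] k) (hτ : ∀ x, τ x = x ^ q)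
    {P : (W'⁄L).Point} {Q : (U'⁄k).Point}
    (hP : PointRed φ P Q) : PointRed φ (σ • P) (Point.map τ Q) := by
  refine pointRed_smul_map σ τ ?_ ?_ hP
  · exact fun x h ↦ (smul_mem_iff_of_mem_decomposition hσ.mem_decompositionSubgroup).mp h
  · intro a b hab
    rw [hτ]
    exact redTo_smul_frobenius hσ hab

/-- **Inertia fixes the points of `E₀[n]`**, `n` prime to the residue characteristic (no
hypothesis on the type of reduction). -/
theorem smul_eq_of_mem_E0 {U : WeierstrassCurve k} (h : CurveRed φ (W'⁄L) U)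
    [WeierstrassCurve.IsElliptic (W'⁄L)] {n : ℕ} (hn : (n : k) ≠ 0) {σ : L ≃ₐ[S] L}
    (hσ : σ ∈ A.inertiaSubgroupIn S) {P : (W'⁄L).Point} (hP : P ∈ E0 h) (hnP : n • P = 0) :
    σ • P = P := by
  obtain ⟨Q, hQ⟩ := hP
  refine eq_of_pointRed h hn ?_ hnP (pointRed_smul_inertia hσ hQ) hQ
  rw [algEquiv_smul_def, ← map_nsmul, hnP, _root_.map_zero]

/-- In any case, inertia moves the points of `E₀` by elements of the kernel of reduction. -/
theorem smul_sub_mem_ker {U : WeierstrassCurve k} (h : CurveRed φ (W'⁄L) U)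
    {σ : L ≃ₐ[S] L} (hσ : σ ∈ A.inertiaSubgroupIn S) {P : (W'⁄L).Point} (hP : P ∈ E0 h) :
    PointRed φ (σ • P - P) (0 : U.toAffine.Point) := by
  obtain ⟨Q, hQ⟩ := hP
  exact (pointRed_smul_inertia hσ hQ).sub_same h hQ

/-- Good reduction: inertia fixes all `n`-torsion points, `n` prime to the residue
characteristic. -/
theorem smul_eq_of_good {U : WeierstrassCurve k} (h : CurveRed φ (W'⁄L) U) (hU : U.Δ ≠ 0)
    {n : ℕ} (hn : (n : k) ≠ 0) {σ : L ≃ₐ[S] L}
    (hσ : σ ∈ A.inertiaSubgroupIn S) {P : (W'⁄L).Point} (hnP : n • P = 0) :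
    σ • P = P := by
  have := isElliptic_of_red h hU
  exact smul_eq_of_mem_E0 h hn hσ (mem_E0_of_Δ_ne_zero h hU P) hnP

end PointsField

section Integral

variable {L : Type*} [Field L] {A : ValuationSubring L}

theorem natCast_residueField_eq_zero {q : ℕ} (hA : A.LiesOverPrime q) :
    (q : IsLocalRing.ResidueField A) = 0 := by
  obtain ⟨hqA, hqm⟩ := ValuationSubring.mem_nonunits_iff_exists_mem_maximalIdeal.mp hA
  have : (⟨(q : L), hqA⟩ : A) = (q : A) := rfl
  rw [← map_natCast (IsLocalRing.residue A), IsLocalRing.residue_eq_zero_iff, ← this]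
  exact hqm

theorem charP_residueField {q : ℕ} (hq : q.Prime) (hA : A.LiesOverPrime q) :
    CharP (IsLocalRing.ResidueField A) q :=
  (CharP.charP_iff_prime_eq_zero hq).mpr (natCast_residueField_eq_zero hA)

theorem natCast_residueField_ne_zero {q n : ℕ} (hq : q.Prime) (hA : A.LiesOverPrime q)
    (hn : ¬ q ∣ n) : (n : IsLocalRing.ResidueField A) ≠ 0 := by
  have := charP_residueField hq hA
  rwa [Ne, CharP.cast_eq_zero_iff _ q]

theorem intCast_residueField_ne_zero {q : ℕ} {n : ℤ} (hq : q.Prime) (hA : A.LiesOverPrime q)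
    (hn : ¬ (q : ℤ) ∣ n) : (n : IsLocalRing.ResidueField A) ≠ 0 := by
  have := charP_residueField hq hA
  rwa [Ne, CharP.intCast_eq_zero_iff _ q]

end Integral

/-- **`E[n]` is unramified at the primes `q ∤ n` of good reduction.** -/
theorem galoisRepUnramifiedAt_of_good {K : Type*} [Field K] [DecidableEq K] [Algebra ℚ K]
    (W : WeierstrassCurve ℤ) {q n : ℕ} (hq : q.Prime) (hqW : W.IsGoodPrimeFor q)
    (hqn : ¬ q ∣ n) :
    WeierstrassCurve.Affine.Point.GaloisRepUnramifiedAt ℚ K (W.map (Int.castRingHom ℚ)) n q := by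
  classical
  intro A hA σ hσ x
  apply Subtype.ext
  have hx := (Submodule.mem_torsionBy_iff (n : ℤ) x.1).1 x.2
  rw [Nat.cast_smul_eq_nsmul] at hx
  refine smul_eq_of_good (φ := IsLocalRing.residue A) (curveRed_int _ W) ?_
    (natCast_residueField_ne_zero hq hA hqn) hσ hx
  rw [WeierstrassCurve.map_Δ]
  exact intCast_residueField_ne_zero hq hA hqW

end Fermat.Agent.EllRed
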