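import Fermat.Agent.EllTorsion.MulXDivPoly
import Fermat.Agent.EllTorsion.Card

set_option autoImplicit false

/-!
# Torsion points of order prime to the residue characteristic are integral

* `eval_ΨSq_eq_zero` : over any field, `n P = 0` implies `ΨSq_n (x(P)) = 0`.
* `x_mem_of_nsmul_eq_zero` : `A` a valuation subring of `L`, `W` a Weierstrass curve over `A`,
  `n ∈ Aˣ`, `n P = 0` with `P = (x, y)`; then `x ∈ A` (and `y ∈ A`).
* `isAlgClosed_residueField` : the residue field of a valuation subring of an algebraically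
  closed field is algebraically closed.
-/

open WeierstrassCurve WeierstrassCurve.Affine WeierstrassCurve.Affine.Point
open Polynomial

namespace Fermat.Agent.EllRed

/-- Over any field: `n P = 0` implies `ΨSq_n (x(P)) = 0`. -/
theorem eval_ΨSq_eq_zero {F : Type*} [Field F] [DecidableEq F] (W : WeierstrassCurve F)
    [W.IsElliptic] (n : ℕ) {x y : F} (h : W.toAffine.Nonsingular x y)
    (h0 : n • Point.some x y h = 0) : (W.ΨSq (n : ℤ)).eval x = 0 := by
  classical
  let K := AlgebraicClosure F
  -- base change to the algebraic closure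
  have hWself : (Affine.baseChange W F : WeierstrassCurve F) = W := by
    change W.map (algebraMap F F) = W
    rw [Algebra.algebraMap_self, WeierstrassCurve.map_id]
  have hell : WeierstrassCurve.IsElliptic (Affine.baseChange W K) :=
    inferInstanceAs (W.map (algebraMap F K)).IsElliptic
  have hnsK : (Affine.baseChange W K).Nonsingular (algebraMap F K x) (algebraMap F K y) :=
    (Affine.map_nonsingular (W := W) (algebraMap F K).injective x y).mpr h
  have key : n • Point.some _ _ hnsK = 0 := by
    have h' : (Affine.baseChange W F).Nonsingular x y := by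
      rw [show (Affine.baseChange W F : Affine F) = W from hWself]
      exact h
    have h0' : n • Point.some x y h' = (0 : (Affine.baseChange W F).Point) := by
      revert h' h
      rw [show (Affine.baseChange W F : Affine F) = W from hWself]
      intro h h0 h'
      exact h0
    have := congrArg (Point.map (W' := W) (Algebra.ofId F K)) h0'
    rw [map_nsmul, _root_.map_zero] at this
    exact this
  have := ((Fermat.Agent.EllTorsion.isMulX_Φ_ΨSq (Affine.baseChange W K) n).nsmul_eq_zero_iff
    hnsK).mp key
  have h2 : ((W.map (algebraMap F K)).ΨSq (n : ℤ)).eval (algebraMap F K x) = 0 := this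
  rw [WeierstrassCurve.map_ΨSq, eval_map, eval₂_at_apply] at h2
  exact (map_eq_zero_iff _ (algebraMap F K).injective).mp h2

section ValuationSubring

variable {L : Type*} [Field L] (A : ValuationSubring L)

theorem mem_of_sq_add_mul_eq {z b c : L} (hb : b ∈ A) (hc : c ∈ A) (h : z ^ 2 + b * z = c) :
    z ∈ A := by
  rcases A.mem_or_inv_mem z with hz | hz
  · exact hz
  · by_cases hz0 : z = 0
    · rw [hz0]; exact A.zero_mem
    · have : z = c * z⁻¹ - b := by
        field_simp
        linear_combination h
      rw [this]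
      exact sub_mem (mul_mem hc hz) hb

/-- `A`-root of a polynomial with unit leading coefficient -/
theorem mem_of_eval₂_eq_zero {p : A[X]} (hp : IsUnit p.leadingCoeff) {x : L}
    (hx : p.eval₂ A.subtype x = 0) : x ∈ A := by
  obtain ⟨u, hu⟩ := hp
  -- make it monic
  have hq : IsIntegral A x := by
    refine ⟨Polynomial.C ((u⁻¹ : Aˣ) : A) * p, ?_, ?_⟩
    · rw [Polynomial.Monic, Polynomial.leadingCoeff_mul, Polynomial.leadingCoeff_C, ← hu,
        Units.inv_mul]
    · rw [Polynomial.eval₂_mul, show (Polynomial.eval₂ (algebraMap A L) x p) = 0 from hx,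
        mul_zero]
  obtain ⟨a, ha⟩ := IsIntegrallyClosed.isIntegral_iff.mp hq
  rw [← ha]
  exact a.2

theorem x_mem_of_nsmul_eq_zero [DecidableEq L] (W : WeierstrassCurve A)
    [(W.map A.subtype).IsElliptic] {n : ℕ} (hn : IsUnit (n : A)) {x y : L}
    (h : (W.map A.subtype).toAffine.Nonsingular x y) (h0 : n • Point.some x y h = 0) :
    x ∈ A := by
  have hev := eval_ΨSq_eq_zero _ n h h0
  rw [WeierstrassCurve.map_ΨSq, Polynomial.eval_map] at hev
  refine mem_of_eval₂_eq_zero A ?_ hev
  have hn0 : ((n : ℤ) : A) ≠ 0 := by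
    have := hn.ne_zero
    simpa using this
  rw [WeierstrassCurve.leadingCoeff_ΨSq _ hn0]
  simpa using hn.pow 2

theorem y_mem_of_x_mem (W : WeierstrassCurve A) {x y : L}
    (h : (W.map A.subtype).toAffine.Equation x y) (hx : x ∈ A) : y ∈ A := by
  rw [Affine.equation_iff] at h
  refine mem_of_sq_add_mul_eq A (z := y)
    (b := (W.a₁ : L) * x + W.a₃) (c := x ^ 3 + (W.a₂ : L) * x ^ 2 + W.a₄ * x + W.a₆) ?_ ?_ ?_
  · exact add_mem (mul_mem W.a₁.2 hx) W.a₃.2
  · exact add_mem (add_mem (add_mem (pow_mem hx 3) (mul_mem W.a₂.2 (pow_mem hx 2)))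
      (mul_mem W.a₄.2 hx)) W.a₆.2
  · simp only [WeierstrassCurve.map_a₁, WeierstrassCurve.map_a₂, WeierstrassCurve.map_a₃,
      WeierstrassCurve.map_a₄, WeierstrassCurve.map_a₆] at h
    change y ^ 2 + (W.a₁ : L) * x * y + (W.a₃ : L) * y = x ^ 3 + (W.a₂ : L) * x ^ 2 +
      (W.a₄ : L) * x + (W.a₆ : L) at h
    linear_combination h

/-- The residue field of a valuation subring of an algebraically closed field is algebraically
closed. -/
theorem isAlgClosed_of_surjective [IsAlgClosed L] {κ : Type*} [Field κ] (φ : A →+* κ)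
    (hφ : Function.Surjective φ) : IsAlgClosed κ := by
  refine IsAlgClosed.of_exists_root _ fun p hp hirr ↦ ?_
  have hl : p ∈ Polynomial.lifts φ := by
    rw [Polynomial.lifts_iff_coeff_lifts]
    exact fun k ↦ hφ _
  obtain ⟨q, hq, hdeg, hmon⟩ := Polynomial.lifts_and_degree_eq_and_monic hl hp
  have hdq : (q.map A.subtype).degree ≠ 0 := by
    rw [hmon.degree_map, hdeg]
    exact (Polynomial.degree_pos_of_irreducible hirr).ne'
  obtain ⟨z, hz⟩ := IsAlgClosed.exists_root (q.map A.subtype) hdq
  have hz' : q.eval₂ A.subtype z = 0 := by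
    rw [← Polynomial.eval_map]; exact hz
  have hzA : z ∈ A := mem_of_eval₂_eq_zero A (by rw [hmon.leadingCoeff]; exact isUnit_one) hz'
  refine ⟨φ ⟨z, hzA⟩, ?_⟩
  rw [← hq, Polynomial.eval_map, Polynomial.eval₂_at_apply]
  have h3 : q.eval (⟨z, hzA⟩ : A) = 0 := by
    apply A.subtype_injective
    rw [_root_.map_zero, ← Polynomial.eval₂_at_apply]
    exact hz'
  rw [h3, _root_.map_zero]

theorem isAlgClosed_residueField [IsAlgClosed L] :
    IsAlgClosed (IsLocalRing.ResidueField A) :=
  isAlgClosed_of_surjective A (IsLocalRing.residue A) IsLocalRing.residue_surjective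

end ValuationSubring

end Fermat.Agent.EllRed
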