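import Fermat.Agent.EllRed.RedHom
import Fermat.Agent.EllRed.TorsionIntegral
import Fermat.Agent.EllTorsion.Torsion

set_option autoImplicit false

/-!
# Reduction and torsion prime to the residue characteristic

`A` a valuation subring of a field `L`, `φ : A →+* k` a local homomorphism to a field, `V` a
Weierstrass curve over `L` reducing to `U` over `k` (`CurveRed φ V U`).

* `eq_zero_of_pointRed_zero` : the kernel of reduction has no `n`-torsion if `n ≠ 0` in `k`.
* `pointRed_torsion_injective`, `exists_torsion_pointRed`, `torsionRed` : for `U` smooth, and `L`,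
  `k` algebraically closed, reduction is an isomorphism `V[n] ≃ U[n]`.
* `PointRed.map` : compatibility of reduction with field automorphisms.
-/

open WeierstrassCurve WeierstrassCurve.Affine WeierstrassCurve.Affine.Point
open Polynomial
open Fermat.Agent.RedHom Fermat.Agent.EllTorsion

namespace Fermat.Agent.EllRed

section General

variable {L k : Type*} [Field L] [Field k] {A : ValuationSubring L} {φ : A →+* k}
  {V : WeierstrassCurve L} {U : WeierstrassCurve k}

/-- A pair of curves `V`, `U` with `U` the reduction of `V` comes from a curve over `A`. -/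
theorem exists_model (h : CurveRed φ V U) :
    ∃ W : WeierstrassCurve A, W.map A.subtype = V ∧ W.map φ = U := by
  obtain ⟨⟨h1, e1⟩, ⟨h2, e2⟩, ⟨h3, e3⟩, ⟨h4, e4⟩, ⟨h6, e6⟩⟩ := h
  refine ⟨⟨⟨_, h1⟩, ⟨_, h2⟩, ⟨_, h3⟩, ⟨_, h4⟩, ⟨_, h6⟩⟩, ?_, ?_⟩
  · rfl
  · exact WeierstrassCurve.ext e1 e2 e3 e4 e6

theorem isElliptic_of_red (h : CurveRed φ V U) (hU : U.Δ ≠ 0) : V.IsElliptic := by
  obtain ⟨W, rfl, rfl⟩ := exists_model h
  rw [WeierstrassCurve.isElliptic_iff, isUnit_iff_ne_zero, WeierstrassCurve.map_Δ]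
  rw [WeierstrassCurve.map_Δ] at hU
  intro h0
  apply hU
  rw [(map_eq_zero_iff _ A.subtype_injective).mp h0, _root_.map_zero]

theorem isElliptic_of_Δ_ne_zero (hU : U.Δ ≠ 0) : U.IsElliptic := by
  rw [WeierstrassCurve.isElliptic_iff, isUnit_iff_ne_zero]
  exact hU

theorem isUnit_natCast [IsLocalHom φ] {n : ℕ} (hn : (n : k) ≠ 0) : IsUnit (n : A) := by
  apply isUnit_of_map_unit φ
  rw [map_natCast]
  exact isUnit_iff_ne_zero.mpr hn

variable [DecidableEq L]

/-- Torsion points of order prime to the residue characteristic are integral. -/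
theorem x_mem_of_torsion [IsLocalHom φ] (h : CurveRed φ V U) [V.IsElliptic] {n : ℕ}
    (hn : (n : k) ≠ 0) {x y : L} {hxy : V.toAffine.Nonsingular x y}
    (hP : n • Point.some x y hxy = 0) : x ∈ A := by
  obtain ⟨W, rfl, rfl⟩ := exists_model h
  exact x_mem_of_nsmul_eq_zero A W (isUnit_natCast (φ := φ) hn) hxy hP

/-- The kernel of reduction has no `n`-torsion for `n` prime to the residue characteristic. -/
theorem eq_zero_of_pointRed_zero [IsLocalHom φ] (h : CurveRed φ V U) [V.IsElliptic] {n : ℕ}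
    (hn : (n : k) ≠ 0) {P : V.toAffine.Point} (hP : n • P = 0)
    (h0 : PointRed φ P (0 : U.toAffine.Point)) : P = 0 := by
  rcases pointRed_zero_right_iff.mp h0 with h1 | ⟨x, y, hxy, rfl, hx⟩
  · exact h1
  · exact absurd (x_mem_of_torsion h hn hP) hx

variable [DecidableEq k] [IsLocalHom φ]

/-- Reduction is injective on points killed by `n`, `n` prime to the residue characteristic. -/
theorem eq_of_pointRed (h : CurveRed φ V U) [V.IsElliptic] {n : ℕ}
    (hn : (n : k) ≠ 0) {P Q : V.toAffine.Point} (hP : n • P = 0) (hQ : n • Q = 0)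
    {R : U.toAffine.Point} (h1 : PointRed φ P R) (h2 : PointRed φ Q R) : P = Q := by
  have h3 : PointRed φ (P + -Q) (R + -R) := h1.add h (h2.neg h)
  rw [add_neg_cancel] at h3
  have h4 : n • (P + -Q) = 0 := by rw [smul_add, smul_neg, hP, hQ, _root_.neg_zero, add_zero]
  have := eq_zero_of_pointRed_zero h hn h4 h3
  rwa [← sub_eq_add_neg, sub_eq_zero] at this

section Good

variable [IsAlgClosed L] [IsAlgClosed k] (h : CurveRed φ V U) (hU : U.Δ ≠ 0) {n : ℕ}
  (hn : (n : k) ≠ 0)

include h hU hn in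
/-- Every point killed by `n` of the reduced curve lifts to a point killed by `n`. -/
theorem exists_torsion_pointRed {Q : U.toAffine.Point} (hQ : n • Q = 0) :
    ∃ P : V.toAffine.Point, n • P = 0 ∧ PointRed φ P Q := by
  have hV := isElliptic_of_red h hU
  have hU' := isElliptic_of_Δ_ne_zero hU
  have hnL : (n : L) ≠ 0 := by
    intro h0
    have h1 : (n : A) = 0 := by
      apply A.subtype_injective
      rw [_root_.map_natCast, _root_.map_zero]; exact h0
    exact (isUnit_natCast (φ := φ) hn).ne_zero h1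
  have hn0 : n ≠ 0 := by rintro rfl; simp at hn
  have hc1 := card_nsmul_eq_zero (W := V) hnL
  have hc2 := card_nsmul_eq_zero (W := U) hn
  have hfin : Finite {P : U.toAffine.Point // n • P = 0} :=
    (finite_nsmul_eq_zero (W := U) hn0).to_subtype
  let f : {P : V.toAffine.Point // n • P = 0} → {P : U.toAffine.Point // n • P = 0} :=
    fun P ↦ ⟨redHomOfGood h hU P.1, by rw [← map_nsmul, P.2, _root_.map_zero]⟩
  have hf : Function.Injective f := by
    intro P Q hPQ
    apply Subtype.ext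
    have h1 := pointRed_redHomOfGood h hU P.1
    have h2 := pointRed_redHomOfGood h hU Q.1
    rw [show redHomOfGood h hU P.1 = redHomOfGood h hU Q.1 from congrArg Subtype.val hPQ] at h1
    exact eq_of_pointRed h hn P.2 Q.2 h1 h2
  have hbij : Function.Bijective f :=
    (Nat.bijective_iff_injective_and_card f).mpr ⟨hf, by rw [hc1, hc2]⟩
  obtain ⟨P, hP⟩ := hbij.2 ⟨Q, hQ⟩
  refine ⟨P.1, P.2, ?_⟩
  have h1 := pointRed_redHomOfGood h hU P.1
  rwa [show redHomOfGood h hU P.1 = Q from congrArg Subtype.val hP] at h1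

end Good

end General

section Prelude

/-! ### In the form of the prelude -/

variable {L k : Type*} [Field L] [Field k] {A : ValuationSubring L} {φ : A →+* k}
  [IsLocalHom φ] [DecidableEq L] [DecidableEq k]
  {R : Type*} [CommRing R] {W' : Affine R} [Algebra R L]
  {R' : Type*} [CommRing R'] {U' : Affine R'} [Algebra R' k]

/-- Reduction on `n`-torsion, as an additive map. -/
noncomputable def torsionRedAdd (h : CurveRed φ (W'⁄L) (U'⁄k))
    (hU : WeierstrassCurve.Δ (U'⁄k) ≠ 0) (n : ℕ) :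
    Submodule.torsionBy ℤ (W'⁄L).Point n →+ Submodule.torsionBy ℤ (U'⁄k).Point n where
  toFun x := ⟨redHomOfGood h hU x.1, by
    have hx := (Submodule.mem_torsionBy_iff (n : ℤ) x.1).1 x.2
    rw [Submodule.mem_torsionBy_iff, ← map_zsmul, hx, _root_.map_zero]⟩
  map_zero' := Subtype.ext (_root_.map_zero (redHomOfGood h hU))
  map_add' x y := Subtype.ext (_root_.map_add (redHomOfGood h hU) x.1 y.1)

theorem pointRed_torsionRedAdd (h : CurveRed φ (W'⁄L) (U'⁄k))
    (hU : WeierstrassCurve.Δ (U'⁄k) ≠ 0) (n : ℕ) (x : Submodule.torsionBy ℤ (W'⁄L).Point n) :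
    PointRed φ (x : (W'⁄L).Point) (torsionRedAdd h hU n x : (U'⁄k).Point) :=
  pointRed_redHomOfGood h hU x.1

theorem torsionRedAdd_injective (h : CurveRed φ (W'⁄L) (U'⁄k))
    (hU : WeierstrassCurve.Δ (U'⁄k) ≠ 0) {n : ℕ} (hn : (n : k) ≠ 0) :
    Function.Injective (torsionRedAdd h hU n) := by
  have hV := isElliptic_of_red h hU
  intro x y hxy
  apply Subtype.ext
  have h1 := pointRed_torsionRedAdd h hU n x
  have h2 := pointRed_torsionRedAdd h hU n y
  rw [hxy] at h1
  refine eq_of_pointRed h hn ?_ ?_ h1 h2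
  · have := (Submodule.mem_torsionBy_iff (n : ℤ) x.1).1 x.2
    rwa [Nat.cast_smul_eq_nsmul] at this
  · have := (Submodule.mem_torsionBy_iff (n : ℤ) y.1).1 y.2
    rwa [Nat.cast_smul_eq_nsmul] at this

theorem torsionRedAdd_bijective [IsAlgClosed L] [IsAlgClosed k] (h : CurveRed φ (W'⁄L) (U'⁄k))
    (hU : WeierstrassCurve.Δ (U'⁄k) ≠ 0) {n : ℕ} (hn : (n : k) ≠ 0) :
    Function.Bijective (torsionRedAdd h hU n) := by
  refine ⟨torsionRedAdd_injective h hU hn, fun y ↦ ?_⟩
  have hy := (Submodule.mem_torsionBy_iff (n : ℤ) y.1).1 y.2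
  rw [Nat.cast_smul_eq_nsmul] at hy
  obtain ⟨P, hP, hPy⟩ := exists_torsion_pointRed h hU hn hy
  refine ⟨⟨P, ?_⟩, ?_⟩
  · rw [Submodule.mem_torsionBy_iff, Nat.cast_smul_eq_nsmul]
    exact hP
  · apply Subtype.ext
    exact (pointRed_torsionRedAdd h hU n _).unique hPy

/-- Reduction is a `ℤ/n`-linear isomorphism on `n`-torsion (good reduction, `n` prime to the
residue characteristic, algebraically closed fields). -/
noncomputable def torsionRed [IsAlgClosed L] [IsAlgClosed k] (h : CurveRed φ (W'⁄L) (U'⁄k))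
    (hU : WeierstrassCurve.Δ (U'⁄k) ≠ 0) {n : ℕ} (hn : (n : k) ≠ 0) :
    Submodule.torsionBy ℤ (W'⁄L).Point n ≃ₗ[ZMod n] Submodule.torsionBy ℤ (U'⁄k).Point n where
  __ := AddEquiv.ofBijective (torsionRedAdd h hU n) (torsionRedAdd_bijective h hU hn)
  map_smul' c x := by
    exact ZMod.map_smul (AddEquiv.ofBijective (torsionRedAdd h hU n)
      (torsionRedAdd_bijective h hU hn)).toAddMonoidHom c x

theorem pointRed_torsionRed [IsAlgClosed L] [IsAlgClosed k] (h : CurveRed φ (W'⁄L) (U'⁄k))
    (hU : WeierstrassCurve.Δ (U'⁄k) ≠ 0) {n : ℕ} (hn : (n : k) ≠ 0)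
    (x : Submodule.torsionBy ℤ (W'⁄L).Point n) :
    PointRed φ (x : (W'⁄L).Point) (torsionRed h hU hn x : (U'⁄k).Point) :=
  pointRed_redHomOfGood h hU x.1

end Prelude

end Fermat.Agent.EllRed
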