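import Mathlib
import Fermat.Agent.EllTorsion.AddSub

set_option autoImplicit false
set_option linter.unusedSectionVars false
set_option linter.unusedVariables false

/-!
# Elementary reduction theory of Weierstrass curves with respect to a valuation

No formal groups, no completeness: everything via the explicit addition formulas.
-/

open WeierstrassCurve WeierstrassCurve.Affine WeierstrassCurve.Affine.Point

namespace Fermat.Agent.EllRed

variable {F : Type*} [Field F] {Γ : Type*} [LinearOrderedCommGroupWithZero Γ]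
  (v : Valuation F Γ)

/-- integrality of the coefficients. -/
structure IntegralCoeffs (W : WeierstrassCurve F) : Prop where
  a₁ : v W.a₁ ≤ 1
  a₂ : v W.a₂ ≤ 1
  a₃ : v W.a₃ ≤ 1
  a₄ : v W.a₄ ≤ 1
  a₆ : v W.a₆ ≤ 1

/-- The kernel of reduction. -/
def InE1 {W : WeierstrassCurve F} (P : W.toAffine.Point) : Prop := v (P.xRep 1) < v (P.xRep 0)

/-- points not reducing to `x = 0`; this is the connected component of the
identity when the node of the reduction is at `x = 0`. -/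
def InE0 {W : WeierstrassCurve F} (P : W.toAffine.Point) : Prop := v (P.xRep 1) ≤ v (P.xRep 0)

variable {v} {W : WeierstrassCurve F}

lemma inE1_zero : InE1 v (0 : W.toAffine.Point) := by
  simp [InE1]

lemma inE0_zero : InE0 v (0 : W.toAffine.Point) := by
  simp [InE0]

lemma inE1_some {x y : F} (h : W.toAffine.Nonsingular x y) :
    InE1 v (Point.some x y h) ↔ 1 < v x := by
  simp [InE1]

lemma inE0_some {x y : F} (h : W.toAffine.Nonsingular x y) :
    InE0 v (Point.some x y h) ↔ 1 ≤ v x := by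
  simp [InE0]

lemma InE1.inE0 {P : W.toAffine.Point} (h : InE1 v P) : InE0 v P := le_of_lt h

/-! ### valuations of sums -/

lemma vadd {x y : F} {g : Γ} (hx : v x ≤ g) (hy : v y ≤ g) : v (x + y) ≤ g :=
  v.map_add_le hx hy

lemma vsub {x y : F} {g : Γ} (hx : v x ≤ g) (hy : v y ≤ g) : v (x - y) ≤ g :=
  (v.map_sub x y).trans (max_le hx hy)

lemma vadd_lt {x y : F} {g : Γ} (hx : v x < g) (hy : v y < g) : v (x + y) < g :=
  v.map_add_lt hx hy

lemma vsub_lt {x y : F} {g : Γ} (hx : v x < g) (hy : v y < g) : v (x - y) < g :=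
  (v.map_sub x y).trans_lt (max_lt hx hy)

lemma vmul {x y : F} {g h : Γ} (hx : v x ≤ g) (hy : v y ≤ h) : v (x * y) ≤ g * h := by
  rw [map_mul]; exact mul_le_mul' hx hy

lemma vmul_one {x y : F} {g : Γ} (hx : v x ≤ 1) (hy : v y ≤ g) : v (x * y) ≤ g := by
  have := vmul hx hy; rwa [one_mul] at this

lemma vmul_one' {x y : F} {g : Γ} (hx : v x ≤ g) (hy : v y ≤ 1) : v (x * y) ≤ g := by
  have := vmul hx hy; rwa [mul_one] at this

lemma vnat (n : ℕ) : v (n : F) ≤ 1 := by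
  induction n with
  | zero => simp
  | succ n ih => push_cast; exact vadd ih (by simp)

lemma vint (n : ℤ) : v (n : F) ≤ 1 := by
  rcases Int.eq_nat_or_neg n with ⟨k, rfl | rfl⟩
  · simpa using vnat k
  · push_cast; rw [Valuation.map_neg]; exact vnat k

lemma vofNat (n : ℕ) [n.AtLeastTwo] : v (OfNat.ofNat n : F) ≤ 1 := by
  have := vnat (v := v) (OfNat.ofNat n)
  rwa [Nat.cast_ofNat] at this

namespace IntegralCoeffs

variable (hW : IntegralCoeffs v W)
include hW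

lemma b₂ : v W.b₂ ≤ 1 := by
  unfold WeierstrassCurve.b₂
  exact vadd (by rw [map_pow]; exact pow_le_one' hW.a₁ 2) (vmul_one (vofNat 4) hW.a₂)

lemma b₄ : v W.b₄ ≤ 1 := by
  unfold WeierstrassCurve.b₄
  exact vadd (vmul_one (vofNat 2) hW.a₄) (vmul_one hW.a₁ hW.a₃)

lemma b₆ : v W.b₆ ≤ 1 := by
  unfold WeierstrassCurve.b₆
  exact vadd (by rw [map_pow]; exact pow_le_one' hW.a₃ 2) (vmul_one (vofNat 4) hW.a₆)

lemma b₈ : v W.b₈ ≤ 1 := by
  unfold WeierstrassCurve.b₈
  refine vsub (vadd (vsub (vadd ?_ ?_) ?_) ?_) ?_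
  · exact vmul_one (by rw [map_pow]; exact pow_le_one' hW.a₁ 2) hW.a₆
  · exact vmul_one (vmul_one (vofNat 4) hW.a₂) hW.a₆
  · exact vmul_one (vmul_one hW.a₁ hW.a₃) hW.a₄
  · exact vmul_one hW.a₂ (by rw [map_pow]; exact pow_le_one' hW.a₃ 2)
  · rw [map_pow]; exact pow_le_one' hW.a₄ 2

lemma integral_y_of_x {x y : F} (h : W.toAffine.Nonsingular x y) (hx : v x ≤ 1) : v y ≤ 1 := by
  by_contra hy
  push Not at hy
  have heq := (WeierstrassCurve.Affine.equation_iff x y).mp h.1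
  have h1 : v (y ^ 2) = v (-(W.a₁ * x * y) - W.a₃ * y + (x ^ 3 + W.a₂ * x ^ 2 + W.a₄ * x + W.a₆)) := by
    congr 1; linear_combination heq
  have h2 : v (-(W.a₁ * x * y) - W.a₃ * y + (x ^ 3 + W.a₂ * x ^ 2 + W.a₄ * x + W.a₆)) ≤ v y := by
    refine vadd (vsub ?_ ?_) ?_
    · rw [Valuation.map_neg]; exact vmul_one (vmul_one hW.a₁ hx) le_rfl
    · exact vmul_one hW.a₃ le_rfl
    · refine le_trans ?_ hy.le
      refine vadd (vadd (vadd ?_ ?_) ?_) hW.a₆
      · rw [map_pow]; exact pow_le_one' hx 3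
      · exact vmul_one hW.a₂ (by rw [map_pow]; exact pow_le_one' hx 2)
      · exact vmul_one hW.a₄ hx
  rw [← h1, map_pow, pow_two] at h2
  have hy0 : 0 < v y := lt_trans zero_lt_one hy
  have : v y * v y ≤ v y * 1 := by rwa [mul_one]
  exact absurd ((mul_le_mul_iff_of_pos_left hy0).mp this) (not_le.mpr hy)

end IntegralCoeffs

section Same

variable [DecidableEq F]

/-- Two integral points having the same nonsingular reduction differ by an element of the
kernel of reduction. -/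
theorem inE1_sub_of_same (hW : IntegralCoeffs v W) {x₁ y₁ x₂ y₂ : F}
    (h₁ : W.toAffine.Nonsingular x₁ y₁) (h₂ : W.toAffine.Nonsingular x₂ y₂)
    (hx₁ : v x₁ ≤ 1) (hy₁ : v y₁ ≤ 1) (hx : v (x₁ - x₂) < 1) (hy : v (y₁ - y₂) < 1)
    (hns : v (2 * y₁ + W.a₁ * x₁ + W.a₃) = 1 ∨
      v (3 * x₁ ^ 2 + 2 * W.a₂ * x₁ + W.a₄ - W.a₁ * y₁) = 1) :
    InE1 v (Point.some x₁ y₁ h₁ - Point.some x₂ y₂ h₂) := by
  have hx₂ : v x₂ ≤ 1 := by
    have := vsub hx₁ hx.le
    rwa [sub_sub_cancel] at this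
  have hy₂ : v y₂ ≤ 1 := by
    have := vsub hy₁ hy.le
    rwa [sub_sub_cancel] at this
  by_cases hxx : x₁ = x₂
  · subst hxx
    rcases (X_eq_iff (h₁ := h₁) (h₂ := h₂)).mp rfl with h | h
    · rw [h, sub_self]; exact inE1_zero
    · -- `P₂ = - P₁`: then `y₁ ≡ - y₁ - a₁ x₁ - a₃`
      have h' : Point.some x₁ y₂ h₂ = - Point.some x₁ y₁ h₁ := by rw [h, neg_neg]
      rw [h', sub_neg_eq_add]
      have hy2 : y₂ = W.toAffine.negY x₁ y₁ := by
        rw [neg_some] at h'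
        simpa using h'
      have hpsi : v (2 * y₁ + W.a₁ * x₁ + W.a₃) < 1 := by
        have e : 2 * y₁ + W.a₁ * x₁ + W.a₃ = y₁ - y₂ := by
          rw [hy2, negY]; ring
        rw [e]; exact hy
      by_cases hyy : y₁ = W.toAffine.negY x₁ y₁
      · rw [add_self_of_Y_eq hyy]; exact inE1_zero
      · rw [add_self_of_Y_ne hyy, inE1_some, addX, slope_of_Y_ne rfl hyy]
        have hnum : v (3 * x₁ ^ 2 + 2 * W.a₂ * x₁ + W.a₄ - W.a₁ * y₁) = 1 := by
          rcases hns with h0 | h0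
          · exact absurd h0 hpsi.ne
          · exact h0
        have hden : v (y₁ - W.toAffine.negY x₁ y₁) < 1 := by
          have e : y₁ - W.toAffine.negY x₁ y₁ = 2 * y₁ + W.a₁ * x₁ + W.a₃ := by
            rw [negY]; ring
          rw [e]; exact hpsi
        have hden0 : v (y₁ - W.toAffine.negY x₁ y₁) ≠ 0 := by
          rw [Ne, map_eq_zero]; exact sub_ne_zero.mpr hyy
        set ℓ := (3 * x₁ ^ 2 + 2 * W.a₂ * x₁ + W.a₄ - W.a₁ * y₁) / (y₁ - W.toAffine.negY x₁ y₁)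
          with hℓ
        have hℓ1 : 1 < v ℓ := by
          rw [hℓ, map_div₀, hnum, one_div]
          exact (one_lt_inv₀ (zero_lt_iff.mpr hden0)).mpr hden
        exact big_addX hW hx₁ hx₁ hℓ1
  · rw [sub_eq_add_neg, neg_some, add_of_X_ne hxx, inE1_some, addX, slope_of_X_ne hxx]
    set ℓ := (y₁ - W.toAffine.negY x₂ y₂) / (x₁ - x₂) with hℓ
    have hd0 : v (x₁ - x₂) ≠ 0 := by
      rw [Ne, map_eq_zero]; exact sub_ne_zero.mpr hxx
    have hℓ1 : 1 < v ℓ := by
      by_cases h0 : v (2 * y₁ + W.a₁ * x₁ + W.a₃) = 1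
      · have e : v (y₁ - W.toAffine.negY x₂ y₂) = 1 := by
          have e1 : y₁ - W.toAffine.negY x₂ y₂ = (2 * y₁ + W.a₁ * x₁ + W.a₃) +
            (-(y₁ - y₂) - W.a₁ * (x₁ - x₂)) := by rw [negY]; ring
          have e2 : v (-(y₁ - y₂) - W.a₁ * (x₁ - x₂)) < 1 := by
            refine vsub_lt (by rw [Valuation.map_neg]; exact hy) ?_
            exact (vmul_one hW.a₁ le_rfl).trans_lt hx
          rw [e1, Valuation.map_add_eq_of_lt_left v (by rw [h0]; exact e2), h0]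
        rw [hℓ, map_div₀, e, one_div]
        exact (one_lt_inv₀ (zero_lt_iff.mpr hd0)).mpr hx
      · have h1 := hns.resolve_left h0
        -- `(y₁ - y₂) ℓ ≡ unit`
        have heq1 := (WeierstrassCurve.Affine.equation_iff x₁ y₁).mp h₁.1
        have heq2 := (WeierstrassCurve.Affine.equation_iff x₂ y₂).mp h₂.1
        have hxx' : x₁ - x₂ ≠ 0 := sub_ne_zero.mpr hxx
        have e : (y₁ - y₂) * ℓ = x₁ ^ 2 + x₁ * x₂ + x₂ ^ 2 + W.a₂ * (x₁ + x₂) + W.a₄ -
            W.a₁ * y₁ := by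
          rw [hℓ, negY]
          field_simp
          linear_combination heq1 - heq2
        have e2 : x₁ ^ 2 + x₁ * x₂ + x₂ ^ 2 + W.a₂ * (x₁ + x₂) + W.a₄ - W.a₁ * y₁ =
            (3 * x₁ ^ 2 + 2 * W.a₂ * x₁ + W.a₄ - W.a₁ * y₁) +
              (-(2 * x₁ + x₂ + W.a₂)) * (x₁ - x₂) := by ring
        have e3 : v ((-(2 * x₁ + x₂ + W.a₂)) * (x₁ - x₂)) < 1 := by
          refine (vmul_one ?_ le_rfl).trans_lt hx
          rw [Valuation.map_neg]
          exact vadd (vadd (vmul_one (vofNat 2) hx₁) hx₂) hW.a₂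
        have e4 : v ((y₁ - y₂) * ℓ) = 1 := by
          rw [e, e2, Valuation.map_add_eq_of_lt_left v (by rw [h1]; exact e3), h1]
        rw [map_mul] at e4
        by_contra hcon
        push Not at hcon
        have : v (y₁ - y₂) * v ℓ < 1 :=
          mul_lt_one_of_lt_of_le hy hcon
        exact absurd e4 this.ne
    exact big_addX hW hx₁ hx₂ hℓ1
where
  big_addX (hW : IntegralCoeffs v W) {x₁ x₂ ℓ : F} (hx₁ : v x₁ ≤ 1) (hx₂ : v x₂ ≤ 1)
      (hℓ : 1 < v ℓ) : 1 < v (ℓ ^ 2 + W.a₁ * ℓ - W.a₂ - x₁ - x₂) := by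
    have h0 : 0 < v ℓ := lt_trans zero_lt_one hℓ
    have e1 : ℓ ^ 2 + W.a₁ * ℓ - W.a₂ - x₁ - x₂ = ℓ ^ 2 + (W.a₁ * ℓ - W.a₂ - x₁ - x₂) := by ring
    have e2 : v (W.a₁ * ℓ - W.a₂ - x₁ - x₂) ≤ v ℓ := by
      refine vsub (vsub (vsub (vmul_one hW.a₁ le_rfl) ?_) ?_) ?_
      · exact hW.a₂.trans hℓ.le
      · exact hx₁.trans hℓ.le
      · exact hx₂.trans hℓ.le
    have e3 : v ℓ < v (ℓ ^ 2) := by
      rw [map_pow, pow_two]
      exact lt_mul_of_one_lt_left h0 hℓ
    rw [e1, Valuation.map_add_eq_of_lt_left v (e2.trans_lt e3)]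
    exact lt_trans hℓ e3

end Same

end Fermat.Agent.EllRed
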