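import Mathlib
import Fermat.Agent.EllRed.Basic

set_option autoImplicit false
set_option linter.unusedSectionVars false
set_option linter.unusedVariables false

/-!
# Multiplicative reduction: the identity component and inertia
-/

open WeierstrassCurve WeierstrassCurve.Affine WeierstrassCurve.Affine.Point
open Fermat.Agent.EllTorsion

namespace Fermat.Agent.EllRed

variable {F : Type*} [Field F] {Γ : Type*} [LinearOrderedCommGroupWithZero Γ]
  {v : Valuation F Γ} {W : WeierstrassCurve F}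

/-- from the symmetric functions to the factors -/
lemma big_of_sym {X Z X' Z' : F} (h0 : X * X' ≠ 0) (h1 : v (X * Z' + Z * X') ≤ v (X * X'))
    (h2 : v (Z * Z') ≤ v (X * X')) : v Z ≤ v X ∧ v Z' ≤ v X' := by
  have hX : v X ≠ 0 := by rw [Ne, map_eq_zero]; exact left_ne_zero_of_mul h0
  have hX' : v X' ≠ 0 := by rw [Ne, map_eq_zero]; exact right_ne_zero_of_mul h0
  have key : ∀ {a b c d : F}, v a ≠ 0 → v c ≠ 0 → v (a * d + b * c) ≤ v (a * c) →
      v (b * d) ≤ v (a * c) → v b ≤ v a := by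
    intro a b c d ha hc k1 k2
    by_contra hcon
    push Not at hcon
    have hc' : 0 < v c := zero_lt_iff.mpr hc
    have hb' : 0 < v b := lt_of_le_of_lt zero_le hcon
    have h3 : v (a * c) < v (b * c) := by
      rw [map_mul, map_mul]
      exact mul_lt_mul_of_pos_right hcon hc'
    have hdc : v d < v c := by
      by_contra h
      push Not at h
      have : v (b * c) ≤ v (b * d) := by
        rw [map_mul, map_mul]
        exact mul_le_mul' le_rfl h
      exact absurd k2 (not_le.mpr (h3.trans_le this))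
    have h4 : v (a * d) < v (b * c) := by
      rw [map_mul, map_mul]
      exact mul_lt_mul'' hcon hdc zero_le zero_le
    rw [Valuation.map_add_eq_of_lt_right v h4] at k1
    exact absurd k1 (not_le.mpr h3)
  exact ⟨key hX hX' h1 h2, key hX' hX (by rwa [mul_comm X' Z, mul_comm Z' X, add_comm,
    mul_comm X' X]) (by rwa [mul_comm Z' Z, mul_comm X' X])⟩

section

variable [DecidableEq F]

/-- If the first coordinate of `addSubMap (sym2x P Q)` dominates then `P + Q` and `P - Q` do not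
reduce to `x = 0`. -/
lemma inE0_add_sub [W.IsElliptic] (P Q : W.toAffine.Point)
    (h0 : addSubEval W (P.sym2x Q) 0 ≠ 0)
    (h1 : v (addSubEval W (P.sym2x Q) 1) ≤ v (addSubEval W (P.sym2x Q) 0))
    (h2 : v (addSubEval W (P.sym2x Q) 2) ≤ v (addSubEval W (P.sym2x Q) 0)) :
    InE0 v (P + Q) ∧ InE0 v (P - Q) := by
  obtain ⟨c, hc, e⟩ := exists_addSubEval_sym2x P Q
  rw [e] at h0 h1 h2
  have hc' : 0 < v c := zero_lt_iff.mpr (by rwa [Ne, map_eq_zero])
  simp only [sym2x, Pi.smul_apply, smul_eq_mul, Matrix.cons_val_zero, Matrix.cons_val_one,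
    Matrix.cons_val] at h0 h1 h2
  rw [map_mul v c, map_mul v c, mul_le_mul_iff_of_pos_left hc'] at h1 h2
  exact big_of_sym (right_ne_zero_of_mul h0) h1 h2

/-- The hypotheses "the reduction has its node at `(0,0)`" in terms of `b`-invariants. -/
structure NodeAtZero (v : Valuation F Γ) (W : WeierstrassCurve F) : Prop where
  int : IntegralCoeffs v W
  b₄ : v W.b₄ < 1
  b₆ : v W.b₆ < 1
  b₈ : v W.b₈ < 1

/-- The identity component is stable under addition and subtraction. -/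
theorem inE0_add_sub_of_inE0 [W.IsElliptic] (hW : NodeAtZero v W) {P Q : W.toAffine.Point}
    (hP : InE0 v P) (hQ : InE0 v Q) : InE0 v (P + Q) ∧ InE0 v (P - Q) := by
  have hsym : P.sym2x Q = ![P.xRep 0 * Q.xRep 0, P.xRep 0 * Q.xRep 1 + P.xRep 1 * Q.xRep 0,
    P.xRep 1 * Q.xRep 1] := rfl
  unfold InE0 at hP hQ
  set X := P.xRep 0
  set Z := P.xRep 1
  set X' := Q.xRep 0
  set Z' := Q.xRep 1
  have hX : X ≠ 0 := by
    intro h
    rw [h, _root_.map_zero, le_zero_iff, map_eq_zero] at hP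
    apply P.xRep_ne_zero
    ext i; fin_cases i
    · exact h
    · exact hP
  have hX' : X' ≠ 0 := by
    intro h
    rw [h, _root_.map_zero, le_zero_iff, map_eq_zero] at hQ
    apply Q.xRep_ne_zero
    ext i; fin_cases i
    · exact h
    · exact hQ
  have hs : X * X' ≠ 0 := mul_ne_zero hX hX'
  have ht : v (X * Z' + Z * X') ≤ v (X * X') := by
    refine vadd ?_ ?_
    · rw [map_mul, map_mul]; exact mul_le_mul' le_rfl hQ
    · rw [map_mul, map_mul]; exact mul_le_mul' hP le_rfl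
  have hu : v (Z * Z') ≤ v (X * X') := by
    rw [map_mul, map_mul]; exact mul_le_mul' hP hQ
  have key : ∀ i, addSubEval W (P.sym2x Q) i = ![(X * X') ^ 2 - W.b₄ * (X * X') * (Z * Z') -
      W.b₆ * (X * Z' + Z * X') * (Z * Z') - W.b₈ * (Z * Z') ^ 2,
        2 * (X * Z' + Z * X') * (X * X') + W.b₂ * (X * X') * (Z * Z') +
          W.b₄ * (X * Z' + Z * X') * (Z * Z') + W.b₆ * (Z * Z') ^ 2,
        (X * Z' + Z * X') ^ 2 - 4 * (X * X') * (Z * Z')] i := by
    intro i; rw [hsym, addSubEval_eq]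
  generalize X * X' = s at *
  generalize X * Z' + Z * X' = t at *
  generalize Z * Z' = u at *
  have hs0 : 0 < v s := zero_lt_iff.mpr (by rwa [Ne, map_eq_zero])
  have hss : 0 < v s * v s := mul_pos hs0 hs0
  have k0 : v (addSubEval W (P.sym2x Q) 0) = v s * v s := by
    rw [key]
    simp only [Matrix.cons_val_zero]
    have e : s ^ 2 - W.b₄ * s * u - W.b₆ * t * u - W.b₈ * u ^ 2 =
        s ^ 2 + -(W.b₄ * (s * u) + W.b₆ * (t * u) + W.b₈ * (u * u)) := by ring
    have small : ∀ {b x y : F}, v b < 1 → v x ≤ v s → v y ≤ v s → v (b * (x * y)) < v s * v s := by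
      intro b x y hb hx hy
      rw [map_mul, map_mul]
      calc v b * (v x * v y) ≤ v b * (v s * v s) := mul_le_mul' le_rfl (mul_le_mul' hx hy)
        _ < 1 * (v s * v s) := mul_lt_mul_of_pos_right hb hss
        _ = v s * v s := one_mul _
    have h3 : v (-(W.b₄ * (s * u) + W.b₆ * (t * u) + W.b₈ * (u * u))) < v (s ^ 2) := by
      rw [Valuation.map_neg, map_pow, pow_two]
      exact vadd_lt (vadd_lt (small hW.b₄ le_rfl hu) (small hW.b₆ ht hu)) (small hW.b₈ hu hu)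
    rw [e, Valuation.map_add_eq_of_lt_left v h3, map_pow, pow_two]
  have small : ∀ {b x y : F}, v b ≤ 1 → v x ≤ v s → v y ≤ v s → v (b * (x * y)) ≤ v s * v s := by
    intro b x y hb hx hy
    rw [map_mul, map_mul]
    calc v b * (v x * v y) ≤ 1 * (v s * v s) := mul_le_mul' hb (mul_le_mul' hx hy)
      _ = v s * v s := one_mul _
  refine inE0_add_sub P Q ?_ ?_ ?_
  · intro h
    rw [h, _root_.map_zero] at k0
    exact hss.ne k0
  · rw [k0, key]
    simp only [Matrix.cons_val_one]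
    have e : 2 * t * s + W.b₂ * s * u + W.b₄ * t * u + W.b₆ * u ^ 2 =
      2 * (t * s) + W.b₂ * (s * u) + W.b₄ * (t * u) + W.b₆ * (u * u) := by ring
    simp only [Matrix.cons_val_zero]
    rw [e]
    exact vadd (vadd (vadd (small (vofNat 2) ht le_rfl) (small hW.int.b₂ le_rfl hu))
      (small hW.b₄.le ht hu)) (small hW.b₆.le hu hu)
  · rw [k0, key]
    simp only [Matrix.cons_val]
    have e : t ^ 2 - 4 * s * u = 1 * (t * t) - 4 * (s * u) := by ring
    rw [e]
    exact vsub (small (by simp) ht ht) (small (vofNat 4) le_rfl hu)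

/-- A normal form: `y² + a₁ x y = x³ + a₂ x² + a₆` with `v a₆ < 1` and `b₂ = a₁² + 4 a₂` a unit;
`α β` are the slopes of the tangents at the node. -/
structure NodeForm (v : Valuation F Γ) (W : WeierstrassCurve F) (α β : F) : Prop where
  int : IntegralCoeffs v W
  a₃ : W.a₃ = 0
  a₄ : W.a₄ = 0
  a₆ : v W.a₆ < 1
  sum : α + β = - W.a₁
  prod : α * β = - W.a₂
  vα : v α ≤ 1
  vβ : v β ≤ 1
  unit : v (α - β) = 1

namespace NodeForm

variable {α β : F} (hW : NodeForm v W α β)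
include hW

lemma symm : NodeForm v W β α where
  int := hW.int
  a₃ := hW.a₃
  a₄ := hW.a₄
  a₆ := hW.a₆
  sum := by rw [add_comm]; exact hW.sum
  prod := by rw [mul_comm]; exact hW.prod
  vα := hW.vβ
  vβ := hW.vα
  unit := by rw [Valuation.map_sub_swap]; exact hW.unit

lemma b₂_eq : W.b₂ = (α - β) ^ 2 := by
  have h1 := hW.sum
  have h2 := hW.prod
  have h3 : W.a₁ = -(α + β) := by rw [h1]; ring
  have h4 : W.a₂ = -(α * β) := by rw [h2]; ring
  rw [WeierstrassCurve.b₂, h3, h4]; ring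

lemma b₄_eq : W.b₄ = 0 := by
  rw [WeierstrassCurve.b₄, hW.a₃, hW.a₄]; ring

lemma b₆_eq : W.b₆ = 4 * W.a₆ := by
  rw [WeierstrassCurve.b₆, hW.a₃]; ring

lemma b₈_eq : W.b₈ = (α - β) ^ 2 * W.a₆ := by
  rw [← hW.b₂_eq, WeierstrassCurve.b₈, WeierstrassCurve.b₂, hW.a₃, hW.a₄]; ring

lemma nodeAtZero : NodeAtZero v W where
  int := hW.int
  b₄ := by rw [hW.b₄_eq, _root_.map_zero]; exact zero_lt_one
  b₆ := by
    rw [hW.b₆_eq]
    exact (vmul_one (vofNat 4) le_rfl).trans_lt hW.a₆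
  b₈ := by
    rw [hW.b₈_eq, map_mul, map_pow, hW.unit, one_pow, one_mul]; exact hW.a₆

lemma prod_eq {x y : F} (h : W.toAffine.Nonsingular x y) :
    (y - α * x) * (y - β * x) = x ^ 3 + W.a₆ := by
  have heq := (WeierstrassCurve.Affine.equation_iff x y).mp h.1
  rw [hW.a₃, hW.a₄] at heq
  linear_combination heq + (-x * y) * hW.sum + x ^ 2 * hW.prod

lemma x_eq (x y : F) : (α - β) * x = (y - β * x) - (y - α * x) := by ring

lemma v_x (x y : F) : v x ≤ max (v (y - α * x)) (v (y - β * x)) := by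
  have : v x = v ((α - β) * x) := by rw [map_mul, hW.unit, one_mul]
  rw [this, hW.x_eq x y, max_comm]
  exact v.map_sub _ _

/-- If the two tangential coordinates have different valuations. -/
theorem inE0_sub_of_lt {x₁ y₁ x₂ y₂ : F} (h₁ : W.toAffine.Nonsingular x₁ y₁)
    (h₂ : W.toAffine.Nonsingular x₂ y₂) (hx₁ : v x₁ < 1) (hx₂ : v x₂ < 1)
    (hu : v (y₁ - α * x₁) = v (y₂ - α * x₂)) (hw : v (y₁ - β * x₁) = v (y₂ - β * x₂))
    (hlt : v (y₁ - β * x₁) < v (y₁ - α * x₁)) :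
    InE0 v (Point.some x₁ y₁ h₁ - Point.some x₂ y₂ h₂) := by
  by_cases hxx : x₁ = x₂
  · subst hxx
    rcases (X_eq_iff (h₁ := h₁) (h₂ := h₂)).mp rfl with h | h
    · rw [h, sub_self]; exact inE0_zero
    · exfalso
      have h' : Point.some x₁ y₂ h₂ = - Point.some x₁ y₁ h₁ := by rw [h, neg_neg]
      have hy2 : y₂ = W.toAffine.negY x₁ y₁ := by
        rw [neg_some] at h'
        simpa using h'
      have e : y₂ - α * x₁ = -(y₁ - β * x₁) := by
        rw [hy2, negY, hW.a₃]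
        linear_combination -x₁ * hW.sum
      rw [e, Valuation.map_neg] at hu
      exact hlt.ne hu.symm
  · rw [sub_eq_add_neg, neg_some, add_of_X_ne hxx, inE0_some, addX, slope_of_X_ne hxx]
    have hd : x₁ - x₂ ≠ 0 := sub_ne_zero.mpr hxx
    have hd0 : 0 < v (x₁ - x₂) := zero_lt_iff.mpr (by rwa [Ne, map_eq_zero])
    set ℓ := (y₁ - W.toAffine.negY x₂ y₂) / (x₁ - x₂) with hℓ
    have e1 : ℓ - α = ((y₁ - α * x₁) + (y₂ - β * x₂)) / (x₁ - x₂) := by
      rw [hℓ, negY, hW.a₃]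
      field_simp
      linear_combination x₂ * hW.sum
    have e2 : ℓ - β = ((y₂ - α * x₂) + (y₁ - β * x₁)) / (x₁ - x₂) := by
      rw [hℓ, negY, hW.a₃]
      field_simp
      linear_combination x₂ * hW.sum
    have e3 : ℓ ^ 2 + W.a₁ * ℓ - W.a₂ - x₁ - x₂ = (ℓ - α) * (ℓ - β) - (x₁ + x₂) := by
      linear_combination ℓ * hW.sum - hW.prod
    have hvd : v (x₁ - x₂) ≤ v (y₁ - α * x₁) := by
      refine vsub ((hW.v_x x₁ y₁).trans ?_) ((hW.v_x x₂ y₂).trans ?_)
      · exact max_le le_rfl hlt.le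
      · rw [← hu, ← hw]; exact max_le le_rfl hlt.le
    have k1 : 1 ≤ v (ℓ - α) := by
      rw [e1, map_div₀, Valuation.map_add_eq_of_lt_left v (by rw [← hw]; exact hlt)]
      exact (one_le_div₀ hd0).mpr hvd
    have k2 : 1 ≤ v (ℓ - β) := by
      rw [e2, map_div₀, Valuation.map_add_eq_of_lt_left v (by rw [← hu]; exact hlt), ← hu]
      exact (one_le_div₀ hd0).mpr hvd
    have k3 : 1 ≤ v ((ℓ - α) * (ℓ - β)) := by
      rw [map_mul]; exact one_le_mul k1 k2
    rw [e3, Valuation.map_sub_eq_of_lt_left v ((vadd_lt hx₁ hx₂).trans_le k3)]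
    exact k3

/-- If the two tangential coordinates have the same valuation (both `< 1`). -/
theorem inE0_add_sub_of_eq [W.IsElliptic] {x₁ y₁ x₂ y₂ : F} (h₁ : W.toAffine.Nonsingular x₁ y₁)
    (h₂ : W.toAffine.Nonsingular x₂ y₂) {U : Γ} (hU : U < 1)
    (hu₁ : v (y₁ - α * x₁) = U) (hw₁ : v (y₁ - β * x₁) = U)
    (hu₂ : v (y₂ - α * x₂) = U) (hw₂ : v (y₂ - β * x₂) = U) :
    InE0 v (Point.some x₁ y₁ h₁ + Point.some x₂ y₂ h₂) ∧
      InE0 v (Point.some x₁ y₁ h₁ - Point.some x₂ y₂ h₂) := by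
  have hx₁ : v x₁ ≤ U := (hW.v_x x₁ y₁).trans (by rw [hu₁, hw₁, max_self])
  have hx₂ : v x₂ ≤ U := (hW.v_x x₂ y₂).trans (by rw [hu₂, hw₂, max_self])
  have hU0 : 0 < U := by
    rw [zero_lt_iff]
    intro h0
    rw [h0, map_eq_zero] at hu₁ hw₁
    have hx0 : x₁ = 0 := by
      have := hx₁; rw [h0, le_zero_iff, map_eq_zero] at this; exact this
    have hy0 : y₁ = 0 := by rw [hx0] at hu₁; simpa using hu₁
    have h6 := hW.prod_eq h₁
    rw [hx0, hy0] at h6
    have hn := (WeierstrassCurve.Affine.nonsingular_iff x₁ y₁).mp h₁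
    rw [hx0, hy0, hW.a₃, hW.a₄] at hn
    simp at hn
  have hUU : 0 < U * U := mul_pos hU0 hU0
  -- `v a₆ = U ^ 2`
  have h6 : v W.a₆ = U * U := by
    have e := hW.prod_eq h₁
    have e' : W.a₆ = (y₁ - α * x₁) * (y₁ - β * x₁) - x₁ * (x₁ * x₁) := by
      linear_combination -e
    have h7 : v (x₁ * (x₁ * x₁)) < U * U := by
      rw [map_mul, map_mul]
      calc v x₁ * (v x₁ * v x₁) ≤ U * (U * U) := mul_le_mul' hx₁ (mul_le_mul' hx₁ hx₁)
        _ < 1 * (U * U) := mul_lt_mul_of_pos_right hU hUU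
        _ = U * U := one_mul _
    have h8 : v ((y₁ - α * x₁) * (y₁ - β * x₁)) = U * U := by rw [map_mul, hu₁, hw₁]
    rw [e', Valuation.map_sub_eq_of_lt_left v (by rw [h8]; exact h7), h8]
  have hU1 : U ≤ 1 := hU.le
  have key : addSubEval W ((Point.some x₁ y₁ h₁).sym2x (Point.some x₂ y₂ h₂)) =
      ![(x₁ * x₂) ^ 2 - W.b₄ * (x₁ * x₂) * 1 - W.b₆ * (x₁ + x₂) * 1 - W.b₈ * 1 ^ 2,
        2 * (x₁ + x₂) * (x₁ * x₂) + W.b₂ * (x₁ * x₂) * 1 + W.b₄ * (x₁ + x₂) * 1 + W.b₆ * 1 ^ 2,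
        (x₁ + x₂) ^ 2 - 4 * (x₁ * x₂) * 1] := by
    rw [sym2x_some_some, addSubEval_eq]
  have hxx : v (x₁ * x₂) ≤ U * U := vmul hx₁ hx₂
  have hxx1 : v (x₁ * x₂) ≤ 1 := hxx.trans (mul_le_one' hU1 hU1)
  have k0 : v (addSubEval W ((Point.some x₁ y₁ h₁).sym2x (Point.some x₂ y₂ h₂)) 0) = U * U := by
    rw [key]
    simp only [Matrix.cons_val_zero]
    rw [hW.b₄_eq, hW.b₆_eq, hW.b₈_eq]
    have e : (x₁ * x₂) ^ 2 - 0 * (x₁ * x₂) * 1 - 4 * W.a₆ * (x₁ + x₂) * 1 -
        (α - β) ^ 2 * W.a₆ * 1 ^ 2 =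
        ((x₁ * x₂) * (x₁ * x₂) - 4 * (W.a₆ * (x₁ + x₂))) - (α - β) ^ 2 * W.a₆ := by ring
    have h9 : v ((α - β) ^ 2 * W.a₆) = U * U := by
      rw [map_mul, map_pow, hW.unit, one_pow, one_mul, h6]
    have h10 : v ((x₁ * x₂) * (x₁ * x₂) - 4 * (W.a₆ * (x₁ + x₂))) < U * U := by
      refine vsub_lt ?_ ?_
      · rw [map_mul]
        calc v (x₁ * x₂) * v (x₁ * x₂) ≤ (U * U) * (U * U) := mul_le_mul' hxx hxx
          _ < 1 * (U * U) := mul_lt_mul_of_pos_right (mul_lt_one_of_nonneg_of_lt_one_left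
                zero_le hU hU1) hUU
          _ = U * U := one_mul _
      · refine (vmul_one (vofNat 4) le_rfl).trans_lt ?_
        rw [map_mul, h6]
        calc U * U * v (x₁ + x₂) ≤ U * U * U := mul_le_mul' le_rfl (vadd hx₁ hx₂)
          _ < U * U * 1 := mul_lt_mul_of_pos_left hU hUU
          _ = U * U := mul_one _
    rw [e, Valuation.map_sub_eq_of_lt_right v (by rw [h9]; exact h10), h9]
  refine inE0_add_sub _ _ ?_ ?_ ?_
  · intro h
    rw [h, _root_.map_zero] at k0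
    exact hUU.ne k0
  · rw [k0, key]
    simp only [Matrix.cons_val_one, Matrix.cons_val_zero]
    rw [hW.b₄_eq, hW.b₆_eq]
    have e : 2 * (x₁ + x₂) * (x₁ * x₂) + W.b₂ * (x₁ * x₂) * 1 + 0 * (x₁ + x₂) * 1 +
      4 * W.a₆ * 1 ^ 2 = (2 * (x₁ + x₂)) * (x₁ * x₂) + W.b₂ * (x₁ * x₂) + 4 * W.a₆ := by ring
    rw [e]
    refine vadd (vadd (vmul_one ?_ hxx) (vmul_one hW.int.b₂ hxx)) (vmul_one (vofNat 4) h6.le)
    exact vmul_one (vofNat 2) ((vadd hx₁ hx₂).trans hU1)
  · rw [k0, key]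
    simp only [Matrix.cons_val]
    have e : (x₁ + x₂) ^ 2 - 4 * (x₁ * x₂) * 1 = (x₁ + x₂) * (x₁ + x₂) - 4 * (x₁ * x₂) := by ring
    rw [e]
    exact vsub (vmul (vadd hx₁ hx₂) (vadd hx₁ hx₂)) (vmul_one (vofNat 4) hxx)

/-- **Component lemma**: two points reducing to the node, whose tangential coordinates have the
same valuations, differ by an element of the identity component. -/
theorem inE0_sub [W.IsElliptic] {x₁ y₁ x₂ y₂ : F} (h₁ : W.toAffine.Nonsingular x₁ y₁)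
    (h₂ : W.toAffine.Nonsingular x₂ y₂) (hx₁ : v x₁ < 1) (hx₂ : v x₂ < 1)
    (hu : v (y₁ - α * x₁) = v (y₂ - α * x₂)) (hw : v (y₁ - β * x₁) = v (y₂ - β * x₂)) :
    InE0 v (Point.some x₁ y₁ h₁ - Point.some x₂ y₂ h₂) := by
  rcases lt_trichotomy (v (y₁ - β * x₁)) (v (y₁ - α * x₁)) with h | h | h
  · exact hW.inE0_sub_of_lt h₁ h₂ hx₁ hx₂ hu hw h
  · -- equal valuations: `< 1`
    refine (hW.inE0_add_sub_of_eq h₁ h₂ (U := v (y₁ - α * x₁)) ?_ rfl h hu.symm
      (hw.symm.trans h)).2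
    have hp := hW.prod_eq h₁
    have h3 : v ((y₁ - α * x₁) * (y₁ - β * x₁)) < 1 := by
      rw [hp]
      refine vadd_lt ?_ hW.a₆
      rw [map_pow]; exact pow_lt_one₀ zero_le hx₁ (by norm_num)
    rw [map_mul, h] at h3
    by_contra hcon
    push Not at hcon
    exact absurd h3 (not_lt.mpr (one_le_mul hcon hcon))
  · exact hW.symm.inE0_sub_of_lt h₁ h₂ hx₁ hx₂ hw hu h

end NodeForm

end

end Fermat.Agent.EllRed
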