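import Fermat.Agent.EllRed.FrobeniusTransfer
import Fermat.Agent.EllTorsion.Frey
import Fermat.Agent.FrobCompareDet
import Fermat.Agent.FrobeniusDensity

set_option autoImplicit false

/-!
# `E[n]` for `W/ℤ` over `ℚ̄`: Frobenius elements, determinant, oddness

Everything is conditional on `FrobCharpolyInputAll` (the theorem of helper58 over finite fields).

* `charpoly_frobenius`, `galoisTrace_frobenius`, `det_frobenius`, `cayley_frobenius`.
* `det_eq_cyc` : `det (σ | E[n]) = cyc n σ` for all `σ ∈ G_ℚ`.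
* `isOdd_residualGaloisRepOf`, `residualGaloisRepOf_isUnramifiedAt`,
  `residualGaloisRepOf_charpoly_frobenius`.
-/

open WeierstrassCurve WeierstrassCurve.Affine WeierstrassCurve.Affine.Point
open Polynomial
open Fermat.Agent.RedHom Fermat.Agent.EllTorsion Fermat.Agent.Cyclotomic

namespace Fermat.Agent.EllRed

local notation "Qbar" => AlgebraicClosure ℚ
local notation "Γℚ" => (AlgebraicClosure ℚ ≃ₐ[ℚ] AlgebraicClosure ℚ)

/-- The finite field input for all primes and all algebraically closed fields (in `Type`). -/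
def FrobCharpolyInputAll : Prop :=
  ∀ (ℓ : ℕ) [Fact ℓ.Prime] (k : Type) [Field k] [DecidableEq k] [IsAlgClosed k]
    [Algebra (ZMod ℓ) k], FrobCharpolyInput ℓ k

theorem frobDensity : FrobCompare.FrobDensity := by
  intro L _ g S
  obtain ⟨ℓ, hℓ, hℓS, A, σ, hA, hσ, hk, -⟩ := FrobDensity.frobenius_density L S g
  exact ⟨ℓ, hℓ, hℓS, A, hA, σ, hσ, hk⟩

variable (hin : FrobCharpolyInputAll) (W : WeierstrassCurve ℤ)

section Frobenius

variable {ℓ : ℕ} (hℓ : ℓ.Prime) (hW : W.IsGoodPrimeFor ℓ) {n : ℕ} (hn : ¬ ℓ ∣ n)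
  (A : ValuationSubring Qbar) (hA : A.LiesOverPrime ℓ) {σ : Γℚ} (hσ : A.IsFrobeniusAt σ ℓ)

include hin hℓ hW hn hA hσ

theorem charpoly_frobenius
    [Module.Free (ZMod n) (Submodule.torsionBy ℤ ((W.map (Int.castRingHom ℚ))⁄Qbar).Point n)]
    [Module.Finite (ZMod n) (Submodule.torsionBy ℤ ((W.map (Int.castRingHom ℚ))⁄Qbar).Point n)] :
    LinearMap.charpoly (galoisRepModuleEnd ℚ (W.map (Int.castRingHom ℚ)) n σ) =
      X ^ 2 - C ((W.apOfModel ℓ : ℤ) : ZMod n) * X + C ((ℓ : ℕ) : ZMod n) := by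
  classical
  have : Fact ℓ.Prime := ⟨hℓ⟩
  have := charP_residueField hℓ hA
  have := isAlgClosed_residueField A
  letI : Algebra (ZMod ℓ) (IsLocalRing.ResidueField A) := ZMod.algebra _ ℓ
  exact charpoly_frobenius_of (hin ℓ (IsLocalRing.ResidueField A)) A (IsLocalRing.residue A) W hW
    hn hσ

theorem trace_det_frobenius :
    LinearMap.trace (ZMod n) _ (galoisRepModuleEnd ℚ (W.map (Int.castRingHom ℚ)) n σ) =
      ((W.apOfModel ℓ : ℤ) : ZMod n) ∧
    LinearMap.det (galoisRepModuleEnd ℚ (W.map (Int.castRingHom ℚ)) n σ) =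
      ((ℓ : ℕ) : ZMod n) := by
  classical
  have : Fact ℓ.Prime := ⟨hℓ⟩
  have := charP_residueField hℓ hA
  have := isAlgClosed_residueField A
  letI : Algebra (ZMod ℓ) (IsLocalRing.ResidueField A) := ZMod.algebra _ ℓ
  exact trace_det_frobenius_of (hin ℓ (IsLocalRing.ResidueField A)) A (IsLocalRing.residue A) W hW
    hn hσ

theorem galoisTrace_frobenius :
    galoisTrace ℚ (W.map (Int.castRingHom ℚ)) n σ = ((W.apOfModel ℓ : ℤ) : ZMod n) :=
  (trace_det_frobenius hin W hℓ hW hn A hA hσ).1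

theorem det_frobenius :
    LinearMap.det (galoisRepModuleEnd ℚ (W.map (Int.castRingHom ℚ)) n σ) =
      ((ℓ : ℕ) : ZMod n) :=
  (trace_det_frobenius hin W hℓ hW hn A hA hσ).2

/-- Cayley–Hamilton for Frobenius on `E[n]`. -/
theorem cayley_frobenius
    (x : Submodule.torsionBy ℤ ((W.map (Int.castRingHom ℚ))⁄Qbar).Point n) :
    σ • σ • x - (W.apOfModel ℓ) • σ • x + (ℓ : ℤ) • x = 0 := by
  have hn0 : n ≠ 0 := by rintro rfl; exact hn (dvd_zero ℓ)
  have hΔ : W.Δ ≠ 0 := by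
    intro h0
    apply hW
    rw [h0]
    exact dvd_zero _
  have := isElliptic_map_of_Δ_ne_zero hΔ
  obtain ⟨b⟩ := nonempty_basis_torsionBy_rat (W.map (Int.castRingHom ℚ)) hn0
  have hfree := Module.Free.of_basis b
  have hfin := Module.Finite.of_basis b
  have h := charpoly_frobenius hin W hℓ hW hn A hA hσ
  have h1 := LinearMap.aeval_self_charpoly (galoisRepModuleEnd ℚ (W.map (Int.castRingHom ℚ)) n σ)
  rw [h] at h1
  have h2 := LinearMap.congr_fun h1 x
  simp only [map_add, map_sub, map_mul, map_pow, aeval_X, aeval_C, LinearMap.add_apply,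
    LinearMap.sub_apply, pow_two, Module.End.mul_apply, galoisRepModuleEnd_apply,
    Module.algebraMap_end_apply, LinearMap.zero_apply] at h2
  rw [← Int.cast_smul_eq_zsmul (ZMod n), ← Int.cast_smul_eq_zsmul (ZMod n), Int.cast_natCast]
  exact h2

end Frobenius

/-- A finite set of primes outside which everything is fine. -/
theorem good_of_notMem {W : WeierstrassCurve ℤ} (hΔ : W.Δ ≠ 0) {n : ℕ} (hn : n ≠ 0) {ℓ : ℕ}
    (hℓ : ℓ.Prime) (h : ℓ ∉ W.Δ.natAbs.primeFactors ∪ n.primeFactors) :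
    W.IsGoodPrimeFor ℓ ∧ ¬ ℓ ∣ n := by
  rw [Finset.mem_union, not_or] at h
  constructor
  · intro h1
    apply h.1
    exact Nat.mem_primeFactors.mpr ⟨hℓ, Int.natCast_dvd.mp h1, Int.natAbs_ne_zero.mpr hΔ⟩
  · intro h1
    exact h.2 (Nat.mem_primeFactors.mpr ⟨hℓ, h1, hn⟩)

include hin in
/-- **The determinant of the Galois action on `E[n]` is the cyclotomic character.** -/
theorem det_eq_cyc (hΔ : W.Δ ≠ 0) (n : ℕ) [NeZero n] (σ : Γℚ) :
    LinearMap.det (galoisRepModuleEnd ℚ (W.map (Int.castRingHom ℚ)) n σ) =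
      (cyc n σ : ZMod n) := by
  have hell := isElliptic_map_of_Δ_ne_zero hΔ
  obtain ⟨L, hL, hfac⟩ := galoisRepModuleEnd_factorsThroughFiniteLevel
    (W.map (Int.castRingHom ℚ)) (NeZero.ne n)
  have hn0 : ((n : ℕ) : ZMod n) = 0 := ZMod.natCast_self n
  have h := FrobCompare.monoidHom_eq_cyc frobDensity n hn0
    ((LinearMap.det).comp (galoisRepModuleEnd ℚ (W.map (Int.castRingHom ℚ)) n)) L ?_
    (W.Δ.natAbs.primeFactors ∪ n.primeFactors) ?_ σ
    (a := ((cyc n σ : ZMod n)).val) (ZMod.natCast_zmod_val _).symm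
  · rw [ZMod.natCast_zmod_val] at h
    exact h
  · intro g g' hgg'
    have h1 : galoisRepModuleEnd ℚ (W.map (Int.castRingHom ℚ)) n (g'⁻¹ * g) = 1 :=
      hfac _ fun x hx ↦ by
        rw [AlgEquiv.mul_apply, hgg' x hx]
        change g'.symm (g' x) = x
        exact g'.symm_apply_apply x
    have h2 : galoisRepModuleEnd ℚ (W.map (Int.castRingHom ℚ)) n g =
        galoisRepModuleEnd ℚ (W.map (Int.castRingHom ℚ)) n g' := by
      have : g = g' * (g'⁻¹ * g) := by group
      rw [this, map_mul, h1, mul_one]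
    simp only [MonoidHom.comp_apply, h2]
  · intro ℓ hℓ hℓS A hA σ hσ
    obtain ⟨h1, h2⟩ := good_of_notMem hΔ (NeZero.ne n) hℓ hℓS
    exact det_frobenius hin W hℓ h1 h2 A hA hσ

section Residual

variable {W} {p : ℕ} [Fact p.Prime]
  (hcard : Nat.card (Submodule.torsionBy ℤ
    ((W.map (Int.castRingHom ℚ))⁄(AlgebraicClosure ℚ)).Point p) = p ^ 2)
  (hker : GaloisFactorsThroughFiniteLevel
    (WeierstrassCurve.Affine.Point.galoisRepModuleEnd (K := AlgebraicClosure ℚ) ℚ
      (W.map (Int.castRingHom ℚ)) p))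

/-- The residual representation is unramified at good primes. -/
theorem residualGaloisRepOf_isUnramifiedAt {q : ℕ} (hq : q.Prime) (hqp : q ≠ p)
    (hW : W.IsGoodPrimeFor q) :
    ((W.map (Int.castRingHom ℚ)).residualGaloisRepOf p hcard hker).IsUnramifiedAt q := by
  intro A hA σ hσ
  have hqp' : ¬ q ∣ p := fun h ↦ hqp ((Nat.prime_dvd_prime_iff_eq hq (Fact.out : p.Prime)).mp h)
  refine LinearMap.ext fun x ↦ ?_
  exact galoisRepUnramifiedAt_of_good (K := AlgebraicClosure ℚ) W hq hW hqp' A hA σ hσ x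

include hin in
theorem residualGaloisRepOf_charpoly_frobenius {ℓ : ℕ} (hℓ : ℓ.Prime) (hℓp : ℓ ≠ p)
    (hW : W.IsGoodPrimeFor ℓ) (A : ValuationSubring Qbar) (hA : A.LiesOverPrime ℓ) {σ : Γℚ}
    (hσ : A.IsFrobeniusAt σ ℓ) :
    LinearMap.charpoly (((W.map (Int.castRingHom ℚ)).residualGaloisRepOf p hcard hker).ρ σ) =
      X ^ 2 - C ((W.apOfModel ℓ : ℤ) : ZMod p) * X + C ((ℓ : ℕ) : ZMod p) := by
  have hℓp' : ¬ ℓ ∣ p := fun h ↦ hℓp ((Nat.prime_dvd_prime_iff_eq hℓ (Fact.out : p.Prime)).mp h)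
  have hfin : Finite (Submodule.torsionBy ℤ
    ((W.map (Int.castRingHom ℚ))⁄(AlgebraicClosure ℚ)).Point p) :=
    Nat.finite_of_card_ne_zero (hcard ▸ pow_ne_zero 2 (Fact.out (p := p.Prime)).pos.ne')
  have : Module.Finite (ZMod p) (Submodule.torsionBy ℤ
    ((W.map (Int.castRingHom ℚ))⁄(AlgebraicClosure ℚ)).Point p) := Module.Finite.of_finite
  exact charpoly_frobenius hin W hℓ hW hℓp' A hA hσ

include hin in
theorem residualGaloisRepOf_det (hΔ : W.Δ ≠ 0) (σ : Γℚ) :
    LinearMap.det (((W.map (Int.castRingHom ℚ)).residualGaloisRepOf p hcard hker).ρ σ) =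
      (cyc p σ : ZMod p) :=
  det_eq_cyc hin W hΔ p σ

include hin in
theorem residualGaloisRepOf_isOdd (hΔ : W.Δ ≠ 0) :
    ((W.map (Int.castRingHom ℚ)).residualGaloisRepOf p hcard hker).IsOdd := by
  intro c hc hc1
  rw [residualGaloisRepOf_det hin hcard hker hΔ, InvolutionCyc.cyc_involution p c hc hc1]
  simp

end Residual

end Fermat.Agent.EllRed
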