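import Fermat.Agent.EllRed.Equivariance
import Fermat.Agent.BrauerNesbittGalois

set_option autoImplicit false

/-!
# Transfer of the characteristic polynomial of Frobenius

`A` a place of `L` (algebraically closed) over the prime `ℓ`, `W` a Weierstrass curve over `ℤ` with
good reduction at `ℓ`, `σ` a Frobenius element at `A`. Through the reduction isomorphism
`torsionRed : E(L)[n] ≃ Ẽ(k)[n]`, the action of `σ` is that of the `ℓ`-power Frobenius of `k`.

* `galoisRepModuleEnd_conj_frobenius` : the conjugation statement.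
* `charpoly_frobenius_of`, `det_frobenius_of`, `galoisTrace_frobenius_of`,
  `cayley_frobenius_of` : consequences for `E(L)[n]`, given the finite field statement.
-/

open WeierstrassCurve WeierstrassCurve.Affine WeierstrassCurve.Affine.Point
open Polynomial
open Fermat.Agent.RedHom Fermat.Agent.EllTorsion

namespace Fermat.Agent.EllRed

section Transfer

variable {L k : Type*} [Field L] [Field k] {A : ValuationSubring L} {φ : A →+* k}
  [DecidableEq L] [DecidableEq k] [IsLocalHom φ] [IsAlgClosed L] [IsAlgClosed k]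
  {R S : Type*} [CommRing R] [Field S] {W' : Affine R} [Algebra R S] [Algebra R L] [Algebra S L]
  [IsScalarTower R S L]
  {R' S' : Type*} [CommRing R'] [CommRing S'] {U' : Affine R'}
  [Algebra R' S'] [Algebra R' k] [Algebra S' k] [IsScalarTower R' S' k]

theorem torsionRed_smul_frobenius (h : CurveRed φ (W'⁄L) (U'⁄k))
    (hU : WeierstrassCurve.Δ (U'⁄k) ≠ 0) {n : ℕ} (hn : (n : k) ≠ 0)
    {σ : L ≃ₐ[S] L} {q : ℕ} (hσ : A.IsFrobeniusAt σ q) (τ : k ≃ₐ[S'] k) (hτ : ∀ x, τ x = x ^ q)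
    (x : Submodule.torsionBy ℤ (W'⁄L).Point n) :
    torsionRed h hU hn (σ • x) = τ • (torsionRed h hU hn x) := by
  apply Subtype.ext
  refine (pointRed_torsionRed h hU hn (σ • x)).unique ?_
  exact pointRed_smul_frobenius hσ τ.toAlgHom hτ (pointRed_torsionRed h hU hn x)

/-- Inertia acts trivially on the `n`-torsion. -/
theorem smul_torsion_of_inertia (h : CurveRed φ (W'⁄L) (U'⁄k))
    (hU : WeierstrassCurve.Δ (U'⁄k) ≠ 0) {n : ℕ} (hn : (n : k) ≠ 0)
    {σ : L ≃ₐ[S] L} (hσ : σ ∈ A.inertiaSubgroupIn S)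
    (x : Submodule.torsionBy ℤ (W'⁄L).Point n) : σ • x = x := by
  apply Subtype.ext
  have hx := (Submodule.mem_torsionBy_iff (n : ℤ) x.1).1 x.2
  rw [Nat.cast_smul_eq_nsmul] at hx
  exact smul_eq_of_good h hU hn hσ hx

/-- The Galois action of a Frobenius element on `E(L)[n]` is conjugate to the action of the
Frobenius of `k` on `Ẽ(k)[n]`. -/
theorem galoisRepModuleEnd_conj_frobenius (h : CurveRed φ (W'⁄L) (U'⁄k))
    (hU : WeierstrassCurve.Δ (U'⁄k) ≠ 0) {n : ℕ} (hn : (n : k) ≠ 0)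
    {σ : L ≃ₐ[S] L} {q : ℕ} (hσ : A.IsFrobeniusAt σ q) (τ : k ≃ₐ[S'] k) (hτ : ∀ x, τ x = x ^ q) :
    (torsionRed h hU hn).conj (galoisRepModuleEnd S W' n σ) = galoisRepModuleEnd S' U' n τ := by
  apply LinearMap.ext
  intro y
  rw [LinearEquiv.conj_apply_apply, galoisRepModuleEnd_apply,
    torsionRed_smul_frobenius h hU hn hσ τ hτ, LinearEquiv.apply_symm_apply,
    galoisRepModuleEnd_apply]

end Transfer

section Integral

variable {L : Type*} [Field L] {A : ValuationSubring L}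

/-- the reduction of `W/ℤ` at a place over `ℓ`, in terms of `W.reductionMod ℓ` -/
theorem curveRed_reductionMod {k : Type*} [Field k] (φ : A →+* k) [Algebra ℚ L]
    (W : WeierstrassCurve ℤ) (ℓ : ℕ) [Algebra (ZMod ℓ) k] :
    CurveRed φ ((W.map (Int.castRingHom ℚ))⁄L) (Affine.baseChange (W.reductionMod ℓ) k) := by
  have h := curveRed_int φ (L := L) W
  have h2 : (W.map (Int.castRingHom k)) = Affine.baseChange (W.reductionMod ℓ) k := by
    change W.map (Int.castRingHom k) =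
      (W.map (Int.castRingHom (ZMod ℓ))).map (algebraMap (ZMod ℓ) k)
    rw [WeierstrassCurve.map_map]
    congr 1
    exact RingHom.ext_int _ _
  rwa [h2] at h

theorem Δ_reductionMod_ne_zero (W : WeierstrassCurve ℤ) {ℓ : ℕ} (hW : W.IsGoodPrimeFor ℓ) :
    (W.reductionMod ℓ).Δ ≠ 0 := by
  change (W.map (Int.castRingHom (ZMod ℓ))).Δ ≠ 0
  rw [WeierstrassCurve.map_Δ, eq_intCast, Ne, ZMod.intCast_zmod_eq_zero_iff_dvd]
  exact hW

theorem Δ_baseChange_reductionMod_ne_zero {k : Type*} [Field k] (W : WeierstrassCurve ℤ) {ℓ : ℕ}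
    [Fact ℓ.Prime] [Algebra (ZMod ℓ) k] (hW : W.IsGoodPrimeFor ℓ) :
    WeierstrassCurve.Δ (Affine.baseChange (W.reductionMod ℓ) k) ≠ 0 := by
  change ((W.reductionMod ℓ).map (algebraMap (ZMod ℓ) k)).Δ ≠ 0
  rw [WeierstrassCurve.map_Δ, Ne, map_eq_zero_iff _ (algebraMap (ZMod ℓ) k).injective]
  exact Δ_reductionMod_ne_zero W hW

end Integral

/-- the `ℓ`-power Frobenius automorphism of an algebraically closed field of characteristic `ℓ` -/
noncomputable def frobAut (ℓ : ℕ) [Fact ℓ.Prime] (k : Type*) [Field k] [IsAlgClosed k]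
    [Algebra (ZMod ℓ) k] : k ≃ₐ[ZMod ℓ] k :=
  have hchar : CharP k ℓ := charP_of_injective_algebraMap (algebraMap (ZMod ℓ) k).injective ℓ
  AlgEquiv.ofBijective
    { frobenius k ℓ with
      commutes' := fun r ↦ by
        change (algebraMap (ZMod ℓ) k r) ^ ℓ = _
        rw [← _root_.map_pow, ZMod.pow_card] }
    (by
      refine ⟨(frobenius k ℓ).injective, fun x ↦ ?_⟩
      obtain ⟨z, hz⟩ := IsAlgClosed.exists_pow_nat_eq x (Fact.out : ℓ.Prime).pos
      exact ⟨z, hz⟩)

theorem frobAut_apply (ℓ : ℕ) [Fact ℓ.Prime] (k : Type*) [Field k] [IsAlgClosed k]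
    [Algebra (ZMod ℓ) k] (x : k) : frobAut ℓ k x = x ^ ℓ := rfl

/-- **The finite field input** (theorem of helper58): over an algebraically closed field `k` of
characteristic `ℓ`, the characteristic polynomial of the `ℓ`-power Frobenius on `E(k)[n]` is
`X² - a X + ℓ`. -/
def FrobCharpolyInput (ℓ : ℕ) [Fact ℓ.Prime] (k : Type*) [Field k] [DecidableEq k]
    [Algebra (ZMod ℓ) k] : Prop :=
  ∀ (U : WeierstrassCurve (ZMod ℓ)), U.Δ ≠ 0 → ∀ (n : ℕ), (n : k) ≠ 0 →
    ∀ [Module.Free (ZMod n) (Submodule.torsionBy ℤ (Affine.baseChange U k).Point n)]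
      [Module.Finite (ZMod n) (Submodule.torsionBy ℤ (Affine.baseChange U k).Point n)]
      (τ : k ≃ₐ[ZMod ℓ] k), (∀ x, τ x = x ^ ℓ) →
      LinearMap.charpoly (galoisRepModuleEnd (ZMod ℓ) U n τ) =
        X ^ 2 - C ((U.traceOfFrobenius : ℤ) : ZMod n) * X + C ((ℓ : ℕ) : ZMod n)

section Main

variable {L : Type*} [Field L] [DecidableEq L] [IsAlgClosed L]
    [Algebra ℚ L] {k : Type*} [Field k] [DecidableEq k] [IsAlgClosed k] {ℓ : ℕ} [Fact ℓ.Prime]
    [Algebra (ZMod ℓ) k]

/-- **Charpoly of Frobenius on `E(L)[n]` at a good prime** (given the finite field input). -/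
theorem charpoly_frobenius_of (hfin : FrobCharpolyInput ℓ k)
    (A : ValuationSubring L) (φ : A →+* k) [IsLocalHom φ]
    (W : WeierstrassCurve ℤ) (hW : W.IsGoodPrimeFor ℓ) {n : ℕ} (hn : ¬ ℓ ∣ n)
    [Module.Free (ZMod n) (Submodule.torsionBy ℤ ((W.map (Int.castRingHom ℚ))⁄L).Point n)]
    [Module.Finite (ZMod n) (Submodule.torsionBy ℤ ((W.map (Int.castRingHom ℚ))⁄L).Point n)]
    {σ : L ≃ₐ[ℚ] L} (hσ : A.IsFrobeniusAt σ ℓ) :
    LinearMap.charpoly (galoisRepModuleEnd ℚ (W.map (Int.castRingHom ℚ)) n σ) =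
      X ^ 2 - C ((W.apOfModel ℓ : ℤ) : ZMod n) * X + C ((ℓ : ℕ) : ZMod n) := by
  have hchar : CharP k ℓ := charP_of_injective_algebraMap (algebraMap (ZMod ℓ) k).injective ℓ
  have hnk : (n : k) ≠ 0 := by rwa [Ne, CharP.cast_eq_zero_iff k ℓ]
  have hred := curveRed_reductionMod φ W ℓ
  have hU := Δ_baseChange_reductionMod_ne_zero (k := k) W hW
  have hconj := galoisRepModuleEnd_conj_frobenius hred hU hnk hσ (frobAut ℓ k)
    (frobAut_apply ℓ k)
  have hUell := isElliptic_of_Δ_ne_zero hU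
  have hfree' := free_torsionBy (W.reductionMod ℓ) (K := k) hnk
  have hfinm' := moduleFinite_torsionBy (W.reductionMod ℓ) (K := k) hnk
  have h := hfin (W.reductionMod ℓ) (Δ_reductionMod_ne_zero W hW) n hnk (frobAut ℓ k)
    (frobAut_apply ℓ k)
  rw [← hconj, LinearEquiv.charpoly_conj] at h
  exact h

/-- Trace and determinant of Frobenius on `E(L)[n]`. -/
theorem trace_det_frobenius_of (hfin : FrobCharpolyInput ℓ k)
    (A : ValuationSubring L) (φ : A →+* k) [IsLocalHom φ]
    (W : WeierstrassCurve ℤ) (hW : W.IsGoodPrimeFor ℓ) {n : ℕ} (hn : ¬ ℓ ∣ n)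
    {σ : L ≃ₐ[ℚ] L} (hσ : A.IsFrobeniusAt σ ℓ) :
    LinearMap.trace (ZMod n) _ (galoisRepModuleEnd ℚ (W.map (Int.castRingHom ℚ)) n σ) =
      ((W.apOfModel ℓ : ℤ) : ZMod n) ∧
    LinearMap.det (galoisRepModuleEnd ℚ (W.map (Int.castRingHom ℚ)) n σ) =
      ((ℓ : ℕ) : ZMod n) := by
  rcases eq_or_ne n 1 with rfl | hn1
  · exact ⟨Subsingleton.elim _ _, Subsingleton.elim _ _⟩
  have : Nontrivial (ZMod n) := ZMod.nontrivial_iff.mpr hn1
  have hL : (n : L) ≠ 0 := by
    have : CharZero L := algebraRat.charZero L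
    rw [Ne, Nat.cast_eq_zero]
    rintro rfl
    exact hn (dvd_zero ℓ)
  have hred := curveRed_reductionMod φ W ℓ
  have hU := Δ_baseChange_reductionMod_ne_zero (k := k) W hW
  have hell := isElliptic_of_red hred hU
  have hfree := free_torsionBy (W.map (Int.castRingHom ℚ)) (K := L) hL
  have hfinm := moduleFinite_torsionBy (W.map (Int.castRingHom ℚ)) (K := L) hL
  have hrank := finrank_torsionBy (W.map (Int.castRingHom ℚ)) (K := L) hL hn1
  have h := charpoly_frobenius_of hfin A φ W hW hn hσ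
  rw [Fermat.Agent.BN2.charpoly_eq_of_finrank_two hrank] at h
  constructor
  · have := congrArg (fun p => p.coeff 1) h
    simpa [coeff_X, coeff_C] using this
  · have := congrArg (fun p => p.coeff 0) h
    simpa [coeff_X, coeff_C] using this

end Main

end Fermat.Agent.EllRed
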