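import Mathlib

set_option autoImplicit false

/-!
# The reduction homomorphism of a Weierstrass curve at a valuation subring

`A` is a valuation subring of a field `L` and `φ : A →+* k` a local homomorphism to a field `k`
(for instance the residue map). `V` is a Weierstrass curve over `L` whose coefficients lie in `A`
and reduce to those of the Weierstrass curve `U` over `k`. No hypothesis on discriminants is made:
everything is done for points with nonsingular reduction.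
-/

open WeierstrassCurve WeierstrassCurve.Affine WeierstrassCurve.Affine.Point
open scoped WeierstrassCurve.Affine

namespace Fermat.Agent.RedHom

section Rel

variable {L k : Type*} [Field L] [Field k] {A : ValuationSubring L} (φ : A →+* k)

/-- `a ∈ A` and `a` reduces to `b` under `φ`. -/
def RedTo (a : L) (b : k) : Prop := ∃ h : a ∈ A, φ ⟨a, h⟩ = b

variable {φ}

theorem RedTo.mem {a : L} {b : k} (h : RedTo φ a b) : a ∈ A := h.1

theorem redTo_coe (a : A) : RedTo φ (a : L) (φ a) := ⟨a.2, rfl⟩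

theorem redTo_of_mem {a : L} (h : a ∈ A) : RedTo φ a (φ ⟨a, h⟩) := ⟨h, rfl⟩

theorem RedTo.unique {a : L} {b b' : k} (h : RedTo φ a b) (h' : RedTo φ a b') : b = b' := by
  obtain ⟨_, rfl⟩ := h
  obtain ⟨_, rfl⟩ := h'
  rfl

theorem RedTo.add {a a' : L} {b b' : k} (h : RedTo φ a b) (h' : RedTo φ a' b') :
    RedTo φ (a + a') (b + b') := by
  obtain ⟨h, rfl⟩ := h
  obtain ⟨h', rfl⟩ := h'
  exact ⟨add_mem h h', by rw [← map_add]; rfl⟩

theorem RedTo.mul {a a' : L} {b b' : k} (h : RedTo φ a b) (h' : RedTo φ a' b') :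
    RedTo φ (a * a') (b * b') := by
  obtain ⟨h, rfl⟩ := h
  obtain ⟨h', rfl⟩ := h'
  exact ⟨mul_mem h h', by rw [← map_mul]; rfl⟩

theorem RedTo.neg {a : L} {b : k} (h : RedTo φ a b) : RedTo φ (-a) (-b) := by
  obtain ⟨h, rfl⟩ := h
  exact ⟨neg_mem h, by rw [← map_neg]; rfl⟩

theorem RedTo.sub {a a' : L} {b b' : k} (h : RedTo φ a b) (h' : RedTo φ a' b') :
    RedTo φ (a - a') (b - b') := by
  obtain ⟨h, rfl⟩ := h
  obtain ⟨h', rfl⟩ := h'
  exact ⟨sub_mem h h', by rw [← map_sub]; rfl⟩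

theorem RedTo.pow {a : L} {b : k} (h : RedTo φ a b) (n : ℕ) : RedTo φ (a ^ n) (b ^ n) := by
  obtain ⟨h, rfl⟩ := h
  exact ⟨pow_mem h n, by rw [← map_pow]; rfl⟩

variable (φ) in
theorem redTo_zero : RedTo φ 0 0 := ⟨zero_mem A, map_zero φ⟩

variable (φ) in
theorem redTo_one : RedTo φ 1 1 := ⟨one_mem A, map_one φ⟩

variable (φ) in
theorem redTo_natCast (n : ℕ) : RedTo φ (n : L) (n : k) :=
  ⟨natCast_mem A n, by rw [← map_natCast φ n]; rfl⟩

variable (φ) in
theorem redTo_intCast (n : ℤ) : RedTo φ (n : L) (n : k) :=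
  ⟨intCast_mem A n, by rw [← map_intCast φ n]; rfl⟩

variable (φ) in
theorem redTo_ofNat (n : ℕ) [n.AtLeastTwo] : RedTo φ (OfNat.ofNat n : L) (OfNat.ofNat n : k) := by
  rw [← Nat.cast_ofNat (R := L), ← Nat.cast_ofNat (R := k)]
  exact redTo_natCast φ n

variable [IsLocalHom φ]

theorem RedTo.eq_zero_iff {a : L} {b : k} (h : RedTo φ a b) : b = 0 ↔ a ∈ A.nonunits := by
  obtain ⟨h, rfl⟩ := h
  rw [ValuationSubring.mem_nonunits_iff_exists_mem_maximalIdeal]
  constructor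
  · intro h0
    refine ⟨h, ?_⟩
    rw [IsLocalRing.mem_maximalIdeal, mem_nonunits_iff]
    intro hu
    exact (hu.map φ).ne_zero h0
  · rintro ⟨h', hm⟩
    rw [IsLocalRing.mem_maximalIdeal, mem_nonunits_iff] at hm
    by_contra h0
    exact hm ((isUnit_map_iff φ _).mp (isUnit_iff_ne_zero.mpr h0))

theorem RedTo.inv {a : L} {b : k} (h : RedTo φ a b) (hb : b ≠ 0) : RedTo φ a⁻¹ b⁻¹ := by
  obtain ⟨h, rfl⟩ := h
  have hu : IsUnit (⟨a, h⟩ : A) := (isUnit_map_iff φ _).mp (isUnit_iff_ne_zero.mpr hb)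
  obtain ⟨u, hu⟩ := hu
  have h1 : (((u⁻¹ : Aˣ) : A) : L) = a⁻¹ := by
    have h2 : ((u : A) : L) * (((u⁻¹ : Aˣ) : A) : L) = 1 := by
      rw [← MulMemClass.coe_mul, Units.mul_inv]; rfl
    rw [hu] at h2
    exact (inv_eq_of_mul_eq_one_right h2).symm
  rw [← h1]
  have h3 : φ (((u⁻¹ : Aˣ) : A)) = (φ ⟨a, h⟩)⁻¹ := by
    rw [eq_comm, inv_eq_of_mul_eq_one_right]
    rw [← hu, ← map_mul, Units.mul_inv, map_one]
  rw [← h3]
  exact redTo_coe _

theorem RedTo.div {a a' : L} {b b' : k} (h : RedTo φ a b) (h' : RedTo φ a' b') (hb : b' ≠ 0) :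
    RedTo φ (a / a') (b / b') := by
  rw [div_eq_mul_inv, div_eq_mul_inv]
  exact h.mul (h'.inv hb)

theorem redTo_inv_of_notMem {a : L} (h : a ∉ A) : RedTo φ a⁻¹ 0 := by
  have h1 : a⁻¹ ∈ A := (A.mem_or_inv_mem a).resolve_left h
  refine ⟨h1, ?_⟩
  by_contra h0
  have h2 := (redTo_of_mem (φ := φ) h1).inv h0
  rw [inv_inv] at h2
  exact h h2.mem

end Rel

section Integrality

variable {L : Type*} [Field L] {A : ValuationSubring L}

/-- valuation subrings are integrally closed (quadratic case). -/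
theorem mem_of_quadratic {a b c : L} (hb : b ∈ A) (hc : c ∈ A) (h : a ^ 2 + b * a = c) : a ∈ A := by
  by_contra ha
  have hinv : a⁻¹ ∈ A := (A.mem_or_inv_mem a).resolve_left ha
  have ha0 : a ≠ 0 := by rintro rfl; exact ha (zero_mem A)
  have : a = c * a⁻¹ - b := by
    field_simp
    linear_combination h
  rw [this] at ha
  exact ha (sub_mem (mul_mem hc hinv) hb)

end Integrality

section Curves

variable {L k : Type*} [Field L] [Field k] {A : ValuationSubring L} (φ : A →+* k)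

/-- The coefficients of `V` are in `A` and reduce to those of `U`. -/
structure CurveRed (V : WeierstrassCurve L) (U : WeierstrassCurve k) : Prop where
  a₁ : RedTo φ V.a₁ U.a₁
  a₂ : RedTo φ V.a₂ U.a₂
  a₃ : RedTo φ V.a₃ U.a₃
  a₄ : RedTo φ V.a₄ U.a₄
  a₆ : RedTo φ V.a₆ U.a₆

theorem curveRed_map (W : WeierstrassCurve A) : CurveRed φ (W.map A.subtype) (W.map φ) where
  a₁ := redTo_coe _
  a₂ := redTo_coe _
  a₃ := redTo_coe _
  a₄ := redTo_coe _
  a₆ := redTo_coe _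

theorem curveRed_int [Algebra ℚ L] (W : WeierstrassCurve ℤ) :
    CurveRed φ ((W.map (Int.castRingHom ℚ))⁄L) (W.map (Int.castRingHom k)) := by
  constructor <;>
  · simp only [WeierstrassCurve.baseChange, WeierstrassCurve.map_a₁, WeierstrassCurve.map_a₂,
      WeierstrassCurve.map_a₃, WeierstrassCurve.map_a₄, WeierstrassCurve.map_a₆,
      eq_intCast, map_intCast]
    exact redTo_intCast φ _

theorem curveRed_intMap (W : WeierstrassCurve ℤ) :
    CurveRed φ (W.map (Int.castRingHom L)) (W.map (Int.castRingHom k)) := by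
  constructor <;>
  · simp only [WeierstrassCurve.map_a₁, WeierstrassCurve.map_a₂,
      WeierstrassCurve.map_a₃, WeierstrassCurve.map_a₄, WeierstrassCurve.map_a₆,
      eq_intCast]
    exact redTo_intCast φ _

variable {φ} {V : WeierstrassCurve L} {U : WeierstrassCurve k}

/-- The model of `V` over `A`. -/
def CurveRed.model (h : CurveRed φ V U) : WeierstrassCurve A :=
  ⟨⟨V.a₁, h.a₁.mem⟩, ⟨V.a₂, h.a₂.mem⟩, ⟨V.a₃, h.a₃.mem⟩, ⟨V.a₄, h.a₄.mem⟩, ⟨V.a₆, h.a₆.mem⟩⟩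

theorem CurveRed.model_map_subtype (h : CurveRed φ V U) : h.model.map A.subtype = V := rfl

theorem CurveRed.model_map (h : CurveRed φ V U) : h.model.map φ = U := by
  ext
  · exact h.a₁.2
  · exact h.a₂.2
  · exact h.a₃.2
  · exact h.a₄.2
  · exact h.a₆.2

theorem CurveRed.Δ (h : CurveRed φ V U) : RedTo φ V.Δ U.Δ := by
  have h1 : V.Δ = ((h.model.Δ : A) : L) := by
    conv_lhs => rw [← h.model_map_subtype]
    rw [WeierstrassCurve.map_Δ]
    rfl
  have h2 : U.Δ = φ h.model.Δ := by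
    conv_lhs => rw [← h.model_map]
    rw [WeierstrassCurve.map_Δ]
  rw [h1, h2]
  exact redTo_coe _

theorem CurveRed.c₄ (h : CurveRed φ V U) : RedTo φ V.c₄ U.c₄ := by
  have h1 : V.c₄ = ((h.model.c₄ : A) : L) := by
    conv_lhs => rw [← h.model_map_subtype]
    rw [WeierstrassCurve.map_c₄]
    rfl
  have h2 : U.c₄ = φ h.model.c₄ := by
    conv_lhs => rw [← h.model_map]
    rw [WeierstrassCurve.map_c₄]
  rw [h1, h2]
  exact redTo_coe _

/-- on the curve, `x ∈ A` implies `y ∈ A` -/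
theorem CurveRed.mem_y (h : CurveRed φ V U) {x y : L} (hxy : V.toAffine.Equation x y)
    (hx : x ∈ A) : y ∈ A := by
  rw [WeierstrassCurve.Affine.equation_iff] at hxy
  refine mem_of_quadratic (b := V.a₁ * x + V.a₃)
    (c := x ^ 3 + V.a₂ * x ^ 2 + V.a₄ * x + V.a₆) ?_ ?_ (by linear_combination hxy)
  · exact add_mem (mul_mem h.a₁.mem hx) h.a₃.mem
  · exact add_mem (add_mem (add_mem (pow_mem hx 3) (mul_mem h.a₂.mem (pow_mem hx 2)))
      (mul_mem h.a₄.mem hx)) h.a₆.mem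

/-- on the curve, `y ∈ A` implies `x ∈ A` -/
theorem CurveRed.mem_x (h : CurveRed φ V U) {x y : L} (hxy : V.toAffine.Equation x y)
    (hy : y ∈ A) : x ∈ A := by
  rw [WeierstrassCurve.Affine.equation_iff] at hxy
  by_contra hx
  have hinv : x⁻¹ ∈ A := (A.mem_or_inv_mem x).resolve_left hx
  have hx0 : x ≠ 0 := by rintro rfl; exact hx (zero_mem A)
  have : x = y ^ 2 * (x⁻¹) ^ 2 + V.a₁ * y * x⁻¹ + V.a₃ * y * (x⁻¹) ^ 2 - V.a₂ - V.a₄ * x⁻¹
      - V.a₆ * (x⁻¹) ^ 2 := by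
    field_simp
    linear_combination -hxy
  apply hx
  rw [this]
  have h1 := h.a₁.mem
  have h2 := h.a₂.mem
  have h3 := h.a₃.mem
  have h4 := h.a₄.mem
  have h6 := h.a₆.mem
  exact sub_mem (sub_mem (sub_mem (add_mem (add_mem (mul_mem (pow_mem hy 2) (pow_mem hinv 2))
    (mul_mem (mul_mem h1 hy) hinv)) (mul_mem (mul_mem h3 hy) (pow_mem hinv 2))) h2)
    (mul_mem h4 hinv)) (mul_mem h6 (pow_mem hinv 2))

theorem CurveRed.equation (h : CurveRed φ V U) {x y : L} {u v : k} (hxy : V.toAffine.Equation x y)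
    (hx : RedTo φ x u) (hy : RedTo φ y v) : U.toAffine.Equation u v := by
  rw [WeierstrassCurve.Affine.equation_iff] at hxy ⊢
  have h1 : RedTo φ (y ^ 2 + V.a₁ * x * y + V.a₃ * y) (v ^ 2 + U.a₁ * u * v + U.a₃ * v) :=
    ((hy.pow 2).add ((h.a₁.mul hx).mul hy)).add (h.a₃.mul hy)
  have h2 : RedTo φ (x ^ 3 + V.a₂ * x ^ 2 + V.a₄ * x + V.a₆)
      (u ^ 3 + U.a₂ * u ^ 2 + U.a₄ * u + U.a₆) :=
    (((hx.pow 3).add (h.a₂.mul (hx.pow 2))).add (h.a₄.mul hx)).add h.a₆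
  rw [hxy] at h1
  exact h1.unique h2

theorem CurveRed.negY (h : CurveRed φ V U) {x y : L} {u v : k}
    (hx : RedTo φ x u) (hy : RedTo φ y v) :
    RedTo φ (V.toAffine.negY x y) (U.toAffine.negY u v) :=
  (hy.neg.sub (h.a₁.mul hx)).sub h.a₃

theorem CurveRed.addX (h : CurveRed φ V U) {x₁ x₂ l : L} {u₁ u₂ m : k}
    (hx₁ : RedTo φ x₁ u₁) (hx₂ : RedTo φ x₂ u₂) (hl : RedTo φ l m) :
    RedTo φ (V.toAffine.addX x₁ x₂ l) (U.toAffine.addX u₁ u₂ m) :=
  ((((hl.pow 2).add (h.a₁.mul hl)).sub h.a₂).sub hx₁).sub hx₂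

theorem CurveRed.negAddY (h : CurveRed φ V U) {x₁ x₂ y₁ l : L} {u₁ u₂ v₁ m : k}
    (hx₁ : RedTo φ x₁ u₁) (hx₂ : RedTo φ x₂ u₂) (hy₁ : RedTo φ y₁ v₁) (hl : RedTo φ l m) :
    RedTo φ (V.toAffine.negAddY x₁ x₂ y₁ l) (U.toAffine.negAddY u₁ u₂ v₁ m) :=
  (hl.mul ((h.addX hx₁ hx₂ hl).sub hx₁)).add hy₁

theorem CurveRed.addY (h : CurveRed φ V U) {x₁ x₂ y₁ l : L} {u₁ u₂ v₁ m : k}
    (hx₁ : RedTo φ x₁ u₁) (hx₂ : RedTo φ x₂ u₂) (hy₁ : RedTo φ y₁ v₁) (hl : RedTo φ l m) :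
    RedTo φ (V.toAffine.addY x₁ x₂ y₁ l) (U.toAffine.addY u₁ u₂ v₁ m) :=
  h.negY (h.addX hx₁ hx₂ hl) (h.negAddY hx₁ hx₂ hy₁ hl)

end Curves

section Points

variable {L k : Type*} [Field L] [Field k] {A : ValuationSubring L} (φ : A →+* k)
  {V : WeierstrassCurve L} {U : WeierstrassCurve k}

/-- The reduction relation on points: `0 ↦ 0`, `(x, y) ↦ 0` if `x ∉ A`, and
`(x, y) ↦ (φ x, φ y)` if `x, y ∈ A` and the latter is a nonsingular point of `U`. -/
def PointRed (P : V.toAffine.Point) (P' : U.toAffine.Point) : Prop :=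
  (P = 0 ∧ P' = 0) ∨
  (∃ (x y : L) (h : V.toAffine.Nonsingular x y), P = .some x y h ∧ x ∉ A ∧ P' = 0) ∨
  (∃ (x y : L) (h : V.toAffine.Nonsingular x y) (u v : k) (h' : U.toAffine.Nonsingular u v),
    P = .some x y h ∧ P' = .some u v h' ∧ RedTo φ x u ∧ RedTo φ y v)

variable {φ}

@[simp] theorem pointRed_zero_iff {P' : U.toAffine.Point} :
    PointRed φ (0 : V.toAffine.Point) P' ↔ P' = 0 := by
  constructor
  · rintro (⟨-, h⟩ | ⟨x, y, h, h0, -⟩ | ⟨x, y, h, u, v, h', h0, -⟩)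
    · exact h
    · exact absurd h0.symm (some_ne_zero h)
    · exact absurd h0.symm (some_ne_zero h)
  · intro h
    exact Or.inl ⟨rfl, h⟩

theorem pointRed_some_iff {x y : L} {h : V.toAffine.Nonsingular x y} {P' : U.toAffine.Point} :
    PointRed φ (.some x y h : V.toAffine.Point) P' ↔
      (x ∉ A ∧ P' = 0) ∨ ∃ (u v : k) (h' : U.toAffine.Nonsingular u v),
        P' = .some u v h' ∧ RedTo φ x u ∧ RedTo φ y v := by
  constructor
  · rintro (⟨h0, -⟩ | ⟨x, y, h, h0, h1, h2⟩ | ⟨x, y, h, u, v, h', h0, h1, h2, h3⟩)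
    · exact absurd h0 (some_ne_zero h)
    · cases h0
      exact Or.inl ⟨h1, h2⟩
    · cases h0
      exact Or.inr ⟨u, v, h', h1, h2, h3⟩
  · rintro (⟨h1, h2⟩ | ⟨u, v, h', h1, h2, h3⟩)
    · exact Or.inr (Or.inl ⟨x, y, h, rfl, h1, h2⟩)
    · exact Or.inr (Or.inr ⟨x, y, h, u, v, h', rfl, h1, h2, h3⟩)

theorem pointRed_some_some_iff {x y : L} {h : V.toAffine.Nonsingular x y} {u v : k}
    {h' : U.toAffine.Nonsingular u v} :
    PointRed φ (.some x y h : V.toAffine.Point) (.some u v h' : U.toAffine.Point) ↔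
      RedTo φ x u ∧ RedTo φ y v := by
  rw [pointRed_some_iff]
  constructor
  · rintro (⟨-, h0⟩ | ⟨u, v, h', h0, h1⟩)
    · exact absurd h0 (some_ne_zero h')
    · cases h0
      exact h1
  · intro h1
    exact Or.inr ⟨u, v, h', rfl, h1⟩

theorem pointRed_some_zero_iff {x y : L} {h : V.toAffine.Nonsingular x y} :
    PointRed φ (.some x y h : V.toAffine.Point) (0 : U.toAffine.Point) ↔ x ∉ A := by
  rw [pointRed_some_iff]
  constructor
  · rintro (⟨h1, -⟩ | ⟨u, v, h', h0, h1⟩)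
    · exact h1
    · exact absurd h0.symm (some_ne_zero h')
  · intro h1
    exact Or.inl ⟨h1, rfl⟩

theorem PointRed.unique {P : V.toAffine.Point} {P' P'' : U.toAffine.Point}
    (h : PointRed φ P P') (h' : PointRed φ P P'') : P' = P'' := by
  rcases P with _ | ⟨x, y, hxy⟩
  · rw [← zero_def, pointRed_zero_iff] at h h'
    rw [h, h']
  · rw [pointRed_some_iff] at h h'
    rcases h with ⟨h1, rfl⟩ | ⟨u, v, huv, rfl, h2, h3⟩
    · rcases h' with ⟨-, rfl⟩ | ⟨u, v, huv, rfl, h2, h3⟩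
      · rfl
      · exact absurd h2.mem h1
    · rcases h' with ⟨h1, rfl⟩ | ⟨u', v', huv', rfl, h2', h3'⟩
      · exact absurd h2.mem h1
      · obtain rfl := h2.unique h2'
        obtain rfl := h3.unique h3'
        rfl

/-- The kernel of reduction: `0` and the points with nonintegral `x`. -/
theorem pointRed_zero_right_iff {P : V.toAffine.Point} :
    PointRed φ P (0 : U.toAffine.Point) ↔
      P = 0 ∨ ∃ (x y : L) (h : V.toAffine.Nonsingular x y), P = .some x y h ∧ x ∉ A := by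
  rcases P with _ | ⟨x, y, hxy⟩
  · rw [← zero_def, pointRed_zero_iff]
    simp
  · rw [pointRed_some_zero_iff]
    constructor
    · intro h
      exact Or.inr ⟨x, y, hxy, rfl, h⟩
    · rintro (h | ⟨x, y, h, h0, h1⟩)
      · exact absurd h (some_ne_zero _)
      · cases h0
        exact h1

theorem PointRed.neg (h : CurveRed φ V U) {P : V.toAffine.Point} {P' : U.toAffine.Point}
    (hP : PointRed φ P P') : PointRed φ (-P) (-P') := by
  rcases P with _ | ⟨x, y, hxy⟩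
  · rw [← zero_def, pointRed_zero_iff] at hP
    rw [← zero_def, hP, Point.neg_zero, Point.neg_zero, pointRed_zero_iff]
  · rw [pointRed_some_iff] at hP
    rcases hP with ⟨h1, rfl⟩ | ⟨u, v, huv, rfl, h2, h3⟩
    · rw [neg_some, Point.neg_zero, pointRed_some_zero_iff]
      exact h1
    · rw [neg_some, neg_some, pointRed_some_some_iff]
      exact ⟨h2, h.negY h2 h3⟩

end Points

section Add

variable {L k : Type*} [Field L] [Field k] {A : ValuationSubring L} {φ : A →+* k} [IsLocalHom φ]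
  {V : WeierstrassCurve L} {U : WeierstrassCurve k} [DecidableEq L] [DecidableEq k]

omit [IsLocalHom φ] [DecidableEq L] [DecidableEq k] in
/-- if the slope is not integral the sum of two integral points is not integral -/
theorem addX_notMem (h : CurveRed φ V U) {x₁ x₂ l : L} (hx₁ : x₁ ∈ A) (hx₂ : x₂ ∈ A)
    (hl : l ∉ A) : V.toAffine.addX x₁ x₂ l ∉ A := by
  intro h0
  apply hl
  refine mem_of_quadratic (b := V.a₁) (c := V.toAffine.addX x₁ x₂ l + V.a₂ + x₁ + x₂)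
    h.a₁.mem (add_mem (add_mem (add_mem h0 h.a₂.mem) hx₁) hx₂) ?_
  rw [WeierstrassCurve.Affine.addX]
  ring

/-- the alternative expression of the slope -/
theorem slope_mul {F : Type*} [Field F] [DecidableEq F] {V : WeierstrassCurve F}
    {x₁ x₂ y₁ y₂ : F} (h₁ : V.toAffine.Equation x₁ y₁)
    (h₂ : V.toAffine.Equation x₂ y₂) (hxy : ¬ (x₁ = x₂ ∧ y₁ = V.toAffine.negY x₂ y₂)) :
    V.toAffine.slope x₁ x₂ y₁ y₂ * (y₁ - V.toAffine.negY x₂ y₂) =
      x₁ ^ 2 + x₁ * x₂ + x₂ ^ 2 + V.a₂ * (x₁ + x₂) + V.a₄ - V.a₁ * y₁ := by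
  by_cases hx : x₁ = x₂
  · have hy : y₁ ≠ V.toAffine.negY x₂ y₂ := fun h => hxy ⟨hx, h⟩
    obtain ⟨rfl, rfl⟩ := hx, Y_eq_of_Y_ne h₁ h₂ hx hy
    rw [slope_of_Y_ne rfl hy, div_mul_cancel₀ _ (sub_ne_zero.mpr hy)]
    ring
  · rw [slope_of_X_ne hx, div_mul_eq_mul_div, div_eq_iff (sub_ne_zero.mpr hx)]
    rw [WeierstrassCurve.Affine.equation_iff] at h₁ h₂
    rw [WeierstrassCurve.Affine.negY]
    linear_combination h₁ - h₂

/-- the sum of two integral points with nonsingular reduction -/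
theorem pointRed_add_some_some (h : CurveRed φ V U) {x₁ y₁ x₂ y₂ : L} {u₁ v₁ u₂ v₂ : k}
    (h₁ : V.toAffine.Nonsingular x₁ y₁) (h₂ : V.toAffine.Nonsingular x₂ y₂)
    (h₁' : U.toAffine.Nonsingular u₁ v₁) (h₂' : U.toAffine.Nonsingular u₂ v₂)
    (hx₁ : RedTo φ x₁ u₁) (hy₁ : RedTo φ y₁ v₁) (hx₂ : RedTo φ x₂ u₂) (hy₂ : RedTo φ y₂ v₂) :
    PointRed φ ((.some x₁ y₁ h₁ : V.toAffine.Point) + .some x₂ y₂ h₂)
      ((.some u₁ v₁ h₁' : U.toAffine.Point) + .some u₂ v₂ h₂') := by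
  have hnegY := h.negY hx₂ hy₂
  by_cases hxy : x₁ = x₂ ∧ y₁ = V.toAffine.negY x₂ y₂
  · -- sum is zero upstairs, hence downstairs
    obtain ⟨rfl, rfl⟩ := hxy
    obtain rfl := hx₁.unique hx₂
    obtain rfl := hy₁.unique hnegY
    rw [add_of_Y_eq rfl rfl, add_of_Y_eq rfl rfl]
    exact pointRed_zero_iff.mpr rfl
  · rw [add_some hxy]
    have hslope := slope_mul h₁.1 h₂.1 hxy
    by_cases hu : u₁ = u₂
    · subst hu
      have hN : RedTo φ (x₁ ^ 2 + x₁ * x₂ + x₂ ^ 2 + V.a₂ * (x₁ + x₂) + V.a₄ - V.a₁ * y₁)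
          (u₁ ^ 2 + u₁ * u₁ + u₁ ^ 2 + U.a₂ * (u₁ + u₁) + U.a₄ - U.a₁ * v₁) :=
        ((((((hx₁.pow 2).add (hx₁.mul hx₂)).add (hx₂.pow 2)).add (h.a₂.mul (hx₁.add hx₂))).add
          h.a₄).sub (h.a₁.mul hy₁))
      by_cases hv : v₁ = U.toAffine.negY u₁ v₂
      · -- the slope is not integral
        rw [add_of_Y_eq rfl hv, pointRed_some_zero_iff]
        apply addX_notMem h hx₁.mem hx₂.mem
        intro hl
        have hl' := redTo_of_mem (φ := φ) hl
        set m := φ ⟨_, hl⟩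
        -- `F_x = 0` at the reduced point
        have hNu : U.toAffine.slope u₁ u₁ v₁ v₂ = 0 := slope_of_Y_eq rfl hv
        have hprod := hl'.mul (hy₁.sub hnegY)
        rw [hslope] at hprod
        have e1 := hprod.unique hN
        rw [sub_eq_zero.mpr hv, mul_zero] at e1
        -- `v₁ = v₂`
        have e2 : v₁ = v₂ := by
          by_cases hx : x₁ = x₂
          · have hy : y₁ ≠ V.toAffine.negY x₂ y₂ := fun h => hxy ⟨hx, h⟩
            have := Y_eq_of_Y_ne h₁.1 h₂.1 hx hy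
            rw [this] at hy₁
            exact hy₁.unique hy₂
          · have h3 := hl'.mul (hx₁.sub hx₂)
            rw [slope_of_X_ne hx, div_mul_cancel₀ _ (sub_ne_zero.mpr hx)] at h3
            have h4 := h3.unique (hy₁.sub hy₂)
            rw [sub_self, mul_zero] at h4
            exact sub_eq_zero.mp h4.symm
        rw [← e2] at hv
        have hns := (WeierstrassCurve.Affine.nonsingular_iff' u₁ v₁).mp h₁'
        rcases hns.2 with h5 | h5
        · apply h5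
          linear_combination e1
        · apply h5
          rw [WeierstrassCurve.Affine.negY] at hv
          linear_combination hv
      · -- the slope is integral and reduces to the tangent slope
        have hv2 : v₁ = v₂ := Y_eq_of_Y_ne h₁'.1 h₂'.1 rfl hv
        subst hv2
        rw [add_some (fun h => hv h.2), pointRed_some_some_iff]
        have hne : v₁ - U.toAffine.negY u₁ v₁ ≠ 0 := sub_ne_zero.mpr hv
        have hl : RedTo φ (V.toAffine.slope x₁ x₂ y₁ y₂) (U.toAffine.slope u₁ u₁ v₁ v₁) := by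
          have hne' : y₁ - V.toAffine.negY x₂ y₂ ≠ 0 := by
            intro h0
            have h1 := hy₁.sub hnegY
            rw [h0] at h1
            exact hne (h1.unique (redTo_zero φ))
          have h1 : V.toAffine.slope x₁ x₂ y₁ y₂ =
              (x₁ ^ 2 + x₁ * x₂ + x₂ ^ 2 + V.a₂ * (x₁ + x₂) + V.a₄ - V.a₁ * y₁) /
                (y₁ - V.toAffine.negY x₂ y₂) := by
            rw [eq_div_iff hne', hslope]
          have h2 : U.toAffine.slope u₁ u₁ v₁ v₁ =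
              (u₁ ^ 2 + u₁ * u₁ + u₁ ^ 2 + U.a₂ * (u₁ + u₁) + U.a₄ - U.a₁ * v₁) /
                (v₁ - U.toAffine.negY u₁ v₁) := by
            rw [eq_div_iff hne, slope_mul h₁'.1 h₁'.1 (fun h => hv h.2)]
          rw [h1, h2]
          exact hN.div (hy₁.sub hnegY) hne
        exact ⟨h.addX hx₁ hx₂ hl, h.addY hx₁ hx₂ hy₁ hl⟩
    · -- distinct `x` downstairs
      have hx : x₁ ≠ x₂ := by
        rintro rfl
        exact hu (hx₁.unique hx₂)
      rw [add_some (fun h => hu h.1), pointRed_some_some_iff]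
      have hl : RedTo φ (V.toAffine.slope x₁ x₂ y₁ y₂) (U.toAffine.slope u₁ u₂ v₁ v₂) := by
        rw [slope_of_X_ne hx, slope_of_X_ne hu]
        exact (hy₁.sub hy₂).div (hx₁.sub hx₂) (sub_ne_zero.mpr hu)
      exact ⟨h.addX hx₁ hx₂ hl, h.addY hx₁ hx₂ hy₁ hl⟩

omit [DecidableEq k] in
/-- Adding a point in the kernel of reduction to an integral point (of any reduction type):
the `x`-coordinate is integral with the same reduction. -/
theorem addX_redTo_of_notMem (h : CurveRed φ V U) {x₁ y₁ x₂ y₂ : L} {u₂ : k}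
    (h₁ : V.toAffine.Equation x₁ y₁) (h₂ : V.toAffine.Equation x₂ y₂)
    (hx₁ : x₁ ∉ A) (hx₂ : RedTo φ x₂ u₂) :
    RedTo φ (V.toAffine.addX x₁ x₂ (V.toAffine.slope x₁ x₂ y₁ y₂)) u₂ := by
  have hne : x₁ ≠ x₂ := by
    rintro rfl
    exact hx₁ hx₂.mem
  have hx0 : x₁ ≠ 0 := by
    rintro rfl
    exact hx₁ (zero_mem A)
  obtain ⟨t, ht⟩ : ∃ t, t = x₁⁻¹ := ⟨_, rfl⟩
  obtain ⟨s, hs⟩ : ∃ s, s = y₁ * (x₁⁻¹) ^ 2 := ⟨_, rfl⟩
  have ht0 : t ≠ 0 := by rw [ht]; exact inv_ne_zero hx0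
  have hxt : x₁ = t⁻¹ := by rw [ht, inv_inv]
  have hyt : y₁ = s * (t⁻¹) ^ 2 := by
    rw [hs, ht, inv_inv]
    field_simp
  have htR : RedTo φ t 0 := by rw [ht]; exact redTo_inv_of_notMem hx₁
  have hy₂ : y₂ ∈ A := h.mem_y h₂ hx₂.mem
  have hy₂' := redTo_of_mem (φ := φ) hy₂
  set v₂ := φ ⟨y₂, hy₂⟩
  rw [WeierstrassCurve.Affine.equation_iff] at h₁ h₂
  -- the equation in terms of `s, t`
  have hst : s ^ 2 + (V.a₁ * t + V.a₃ * t ^ 2) * s =
      t + V.a₂ * t ^ 2 + V.a₄ * t ^ 3 + V.a₆ * t ^ 4 := by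
    rw [hxt, hyt] at h₁
    field_simp at h₁
    linear_combination h₁
  have hsA : s ∈ A := by
    refine mem_of_quadratic ?_ ?_ hst
    · exact add_mem (mul_mem h.a₁.mem htR.mem) (mul_mem h.a₃.mem (pow_mem htR.mem 2))
    · exact add_mem (add_mem (add_mem htR.mem (mul_mem h.a₂.mem (pow_mem htR.mem 2)))
        (mul_mem h.a₄.mem (pow_mem htR.mem 3))) (mul_mem h.a₆.mem (pow_mem htR.mem 4))
  have hsR : RedTo φ s 0 := by
    have h1 := redTo_of_mem (φ := φ) hsA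
    have h2 := (h1.pow 2).add (((h.a₁.mul htR).add (h.a₃.mul (htR.pow 2))).mul h1)
    rw [hst] at h2
    have h3 := ((htR.add (h.a₂.mul (htR.pow 2))).add (h.a₄.mul (htR.pow 3))).add
      (h.a₆.mul (htR.pow 4))
    have h4 := h2.unique h3
    have h5 : (φ ⟨s, hsA⟩) ^ 2 = 0 := by
      linear_combination h4
    have h6 : φ ⟨s, hsA⟩ = 0 := by
      simpa using h5
    rwa [h6] at h1
  -- the formula for `x₃`
  have hden : (1 - x₂ * t) ≠ 0 := by
    intro h0
    apply hne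
    rw [hxt]
    field_simp
    linear_combination h0
  have hdenR : RedTo φ ((1 - x₂ * t) ^ 2) 1 := by
    have := ((redTo_one φ).sub (hx₂.mul htR)).pow 2
    simpa using this
  have hformula : V.toAffine.addX x₁ x₂ (V.toAffine.slope x₁ x₂ y₁ y₂) =
      (x₂ + x₂ ^ 2 * t + 2 * V.a₂ * x₂ * t + V.a₄ * (t + x₂ * t ^ 2) + 2 * V.a₆ * t ^ 2
        - 2 * s * y₂ - V.a₁ * (t * y₂ + x₂ * s) - V.a₃ * (s + y₂ * t ^ 2)) / (1 - x₂ * t) ^ 2 := by
    rw [slope_of_X_ne hne, eq_div_iff (pow_ne_zero 2 hden), WeierstrassCurve.Affine.addX]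
    have hne' : t⁻¹ - x₂ ≠ 0 := by
      rw [← hxt]; exact sub_ne_zero.mpr hne
    have e1 : (y₁ - y₂) / (x₁ - x₂) * (1 - x₂ * t) = s * t⁻¹ - y₂ * t := by
      have hden' : 1 - t * x₂ ≠ 0 := by rwa [mul_comm]
      rw [hxt, hyt]
      field_simp
    have e2 : x₁ = t⁻¹ := hxt
    have e3 : t * t⁻¹ = 1 := mul_inv_cancel₀ ht0
    set l := (y₁ - y₂) / (x₁ - x₂)
    have e4 : (l ^ 2 + V.toAffine.a₁ * l - V.toAffine.a₂ - x₁ - x₂) * (1 - x₂ * t) ^ 2 =
        (l * (1 - x₂ * t)) ^ 2 + V.toAffine.a₁ * (l * (1 - x₂ * t)) * (1 - x₂ * t)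
          - (V.toAffine.a₂ + x₁ + x₂) * (1 - x₂ * t) ^ 2 := by ring
    rw [e4, e1, e2]
    field_simp
    linear_combination hst + t ^ 4 * h₂
  rw [hformula]
  have hnum : RedTo φ (x₂ + x₂ ^ 2 * t + 2 * V.a₂ * x₂ * t + V.a₄ * (t + x₂ * t ^ 2) +
      2 * V.a₆ * t ^ 2 - 2 * s * y₂ - V.a₁ * (t * y₂ + x₂ * s) - V.a₃ * (s + y₂ * t ^ 2))
      (u₂ + u₂ ^ 2 * 0 + 2 * U.a₂ * u₂ * 0 + U.a₄ * (0 + u₂ * 0 ^ 2) + 2 * U.a₆ * 0 ^ 2
        - 2 * 0 * v₂ - U.a₁ * (0 * v₂ + u₂ * 0) - U.a₃ * (0 + v₂ * 0 ^ 2)) := by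
    have two := redTo_ofNat φ 2
    exact (((((((hx₂.add ((hx₂.pow 2).mul htR)).add (((two.mul h.a₂).mul hx₂).mul htR)).add
      (h.a₄.mul (htR.add (hx₂.mul (htR.pow 2))))).add ((two.mul h.a₆).mul (htR.pow 2))).sub
      ((two.mul hsR).mul hy₂')).sub (h.a₁.mul ((htR.mul hy₂').add (hx₂.mul hsR)))).sub
      (h.a₃.mul (hsR.add (hy₂'.mul (htR.pow 2)))))
  have := hnum.div hdenR one_ne_zero
  simpa using this

omit [DecidableEq k] in
/-- Adding a point of the kernel of reduction to an integral point of any reduction type. -/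
theorem exists_some_add_of_notMem (h : CurveRed φ V U) {x₁ y₁ x₂ y₂ : L}
    (h₁ : V.toAffine.Nonsingular x₁ y₁) (h₂ : V.toAffine.Nonsingular x₂ y₂)
    (hx₁ : x₁ ∉ A) {u₂ : k} (hx₂ : RedTo φ x₂ u₂) :
    ∃ (x₃ y₃ : L) (h₃ : V.toAffine.Nonsingular x₃ y₃),
      (.some x₁ y₁ h₁ : V.toAffine.Point) + .some x₂ y₂ h₂ = .some x₃ y₃ h₃ ∧ RedTo φ x₃ u₂ := by
  have hne : x₁ ≠ x₂ := by
    rintro rfl
    exact hx₁ hx₂.mem
  exact ⟨_, _, nonsingular_add h₁ h₂ fun h => hne h.1, add_some fun h => hne h.1,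
    addX_redTo_of_notMem h h₁.1 h₂.1 hx₁ hx₂⟩

omit [IsLocalHom φ] [DecidableEq L] [DecidableEq k] in
/-- two points of `U` with the same `x` coordinate: if one is nonsingular so is the other -/
theorem nonsingular_of_same_x {u v v' : k} (h : U.toAffine.Nonsingular u v)
    (h' : U.toAffine.Equation u v') : U.toAffine.Nonsingular u v' := by
  rcases Y_eq_of_X_eq h'  h.1 rfl with rfl | rfl
  · exact h
  · exact (nonsingular_neg u v).mpr h

/-- **The reduction is additive.** -/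
theorem PointRed.add (h : CurveRed φ V U) {P Q : V.toAffine.Point} {P' Q' : U.toAffine.Point}
    (hP : PointRed φ P P') (hQ : PointRed φ Q Q') : PointRed φ (P + Q) (P' + Q') := by
  -- the case of a point in the kernel plus an integral point
  have key : ∀ (x₁ y₁ x₂ y₂ : L) (u₂ v₂ : k) (h₁ : V.toAffine.Nonsingular x₁ y₁)
      (h₂ : V.toAffine.Nonsingular x₂ y₂) (h₂' : U.toAffine.Nonsingular u₂ v₂),
      x₁ ∉ A → RedTo φ x₂ u₂ → RedTo φ y₂ v₂ →
      PointRed φ ((.some x₁ y₁ h₁ : V.toAffine.Point) + .some x₂ y₂ h₂)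
        (.some u₂ v₂ h₂' : U.toAffine.Point) := by
    intro x₁ y₁ x₂ y₂ u₂ v₂ h₁ h₂ h₂' hx₁ hx₂ hy₂
    obtain ⟨x₃, y₃, h₃, e, hx₃⟩ := exists_some_add_of_notMem h h₁ h₂ hx₁ hx₂
    have hy₃ := redTo_of_mem (φ := φ) (h.mem_y h₃.1 hx₃.mem)
    set v₃ := φ ⟨y₃, h.mem_y h₃.1 hx₃.mem⟩
    have h₃' : U.toAffine.Nonsingular u₂ v₃ :=
      nonsingular_of_same_x h₂' (h.equation h₃.1 hx₃ hy₃)
    have hR : PointRed φ (.some x₃ y₃ h₃ : V.toAffine.Point)
        (.some u₂ v₃ h₃' : U.toAffine.Point) :=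
      pointRed_some_some_iff.mpr ⟨hx₃, hy₃⟩
    have hQ : PointRed φ (.some x₂ y₂ h₂ : V.toAffine.Point)
        (.some u₂ v₂ h₂' : U.toAffine.Point) :=
      pointRed_some_some_iff.mpr ⟨hx₂, hy₂⟩
    have hnQ := hQ.neg h
    rw [neg_some, neg_some, pointRed_some_some_iff] at hnQ
    have hsum := pointRed_add_some_some h h₃ ((nonsingular_neg ..).mpr h₂) h₃'
      ((nonsingular_neg ..).mpr h₂') hx₃ hy₃ hnQ.1 hnQ.2
    rw [← e, ← neg_some h₂, add_neg_cancel_right, ← neg_some h₂'] at hsum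
    have h0 := hsum.unique (pointRed_some_zero_iff.mpr hx₁)
    rw [add_neg_eq_zero] at h0
    rw [e, ← h0]
    exact hR
  rcases P with _ | ⟨x₁, y₁, h₁⟩
  · rw [← zero_def, pointRed_zero_iff] at hP
    rw [← zero_def, hP, zero_add, zero_add]
    exact hQ
  rcases Q with _ | ⟨x₂, y₂, h₂⟩
  · rw [← zero_def, pointRed_zero_iff] at hQ
    rw [← zero_def, hQ, add_zero, add_zero]
    exact hP
  rw [pointRed_some_iff] at hP hQ
  rcases hP with ⟨hx₁, rfl⟩ | ⟨u₁, v₁, h₁', rfl, hx₁, hy₁⟩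
  · rcases hQ with ⟨hx₂, rfl⟩ | ⟨u₂, v₂, h₂', rfl, hx₂, hy₂⟩
    · -- both in the kernel
      rw [add_zero, pointRed_zero_right_iff]
      by_contra hcon
      push Not at hcon
      obtain ⟨hne, hcon⟩ := hcon
      obtain ⟨x₃, y₃, h₃, e⟩ : ∃ (x₃ y₃ : L) (h₃ : V.toAffine.Nonsingular x₃ y₃),
          (.some x₁ y₁ h₁ : V.toAffine.Point) + .some x₂ y₂ h₂ = .some x₃ y₃ h₃ := by
        rcases hR : (.some x₁ y₁ h₁ : V.toAffine.Point) + .some x₂ y₂ h₂ with _ | ⟨x₃, y₃, h₃⟩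
        · exact absurd hR hne
        · exact ⟨x₃, y₃, h₃, hR⟩
      have hx₃ := redTo_of_mem (φ := φ) (hcon x₃ y₃ h₃ e)
      obtain ⟨x₄, y₄, h₄, e', hx₄⟩ := exists_some_add_of_notMem h
        ((nonsingular_neg x₁ y₁).mpr h₁) h₃ hx₁ hx₃
      rw [← e, ← neg_some h₁, neg_add_cancel_left] at e'
      cases e'
      exact hx₂ hx₄.mem
    · rw [zero_add]
      exact key _ _ _ _ _ _ _ _ _ hx₁ hx₂ hy₂
  · rcases hQ with ⟨hx₂, rfl⟩ | ⟨u₂, v₂, h₂', rfl, hx₂, hy₂⟩
    · rw [add_zero, add_comm]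
      exact key _ _ _ _ _ _ _ _ _ hx₂ hx₁ hy₁
    · exact pointRed_add_some_some h h₁ h₂ h₁' h₂' hx₁ hy₁ hx₂ hy₂

theorem PointRed.sub (h : CurveRed φ V U) {P Q : V.toAffine.Point} {P' Q' : U.toAffine.Point}
    (hP : PointRed φ P P') (hQ : PointRed φ Q Q') : PointRed φ (P - Q) (P' - Q') := by
  rw [sub_eq_add_neg, sub_eq_add_neg]
  exact hP.add h (hQ.neg h)

theorem PointRed.nsmul (h : CurveRed φ V U) {P : V.toAffine.Point} {P' : U.toAffine.Point}
    (hP : PointRed φ P P') (n : ℕ) : PointRed φ (n • P) (n • P') := by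
  induction n with
  | zero => rw [zero_nsmul, zero_nsmul]; exact pointRed_zero_iff.mpr rfl
  | succ n ih => rw [succ_nsmul, succ_nsmul]; exact ih.add h hP

/-- The subgroup of points with nonsingular reduction. -/
def E0 (h : CurveRed φ V U) : AddSubgroup V.toAffine.Point where
  carrier := {P | ∃ P' : U.toAffine.Point, PointRed φ P P'}
  zero_mem' := ⟨0, pointRed_zero_iff.mpr rfl⟩
  add_mem' := by
    rintro P Q ⟨P', hP⟩ ⟨Q', hQ⟩
    exact ⟨_, hP.add h hQ⟩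
  neg_mem' := by
    rintro P ⟨P', hP⟩
    exact ⟨_, hP.neg h⟩

theorem mem_E0_iff {h : CurveRed φ V U} {P : V.toAffine.Point} :
    P ∈ E0 h ↔ ∃ P' : U.toAffine.Point, PointRed φ P P' := Iff.rfl

theorem some_mem_E0_iff {h : CurveRed φ V U} {x y : L} {hxy : V.toAffine.Nonsingular x y} :
    (.some x y hxy : V.toAffine.Point) ∈ E0 h ↔
      x ∉ A ∨ ∃ (hx : x ∈ A) (hy : y ∈ A), U.toAffine.Nonsingular (φ ⟨x, hx⟩) (φ ⟨y, hy⟩) := by
  rw [mem_E0_iff]
  constructor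
  · rintro ⟨P', hP⟩
    rcases pointRed_some_iff.mp hP with ⟨h1, -⟩ | ⟨_, _, h', -, ⟨hx, rfl⟩, ⟨hy, rfl⟩⟩
    · exact Or.inl h1
    · exact Or.inr ⟨hx, hy, h'⟩
  · rintro (h1 | ⟨hx, hy, h'⟩)
    · exact ⟨0, pointRed_some_zero_iff.mpr h1⟩
    · exact ⟨.some _ _ h', pointRed_some_some_iff.mpr ⟨⟨hx, rfl⟩, ⟨hy, rfl⟩⟩⟩

/-- The reduction homomorphism on points with nonsingular reduction. -/
noncomputable def redHom (h : CurveRed φ V U) : E0 h →+ U.toAffine.Point where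
  toFun P := P.2.choose
  map_zero' := by
    have h1 := (0 : E0 h).2.choose_spec
    exact h1.unique (pointRed_zero_iff.mpr rfl)
  map_add' P Q := by
    have h1 := (P + Q).2.choose_spec
    exact h1.unique (P.2.choose_spec.add h Q.2.choose_spec)

theorem pointRed_redHom (h : CurveRed φ V U) (P : E0 h) : PointRed φ P.1 (redHom h P) :=
  P.2.choose_spec

theorem redHom_eq_iff (h : CurveRed φ V U) {P : E0 h} {P' : U.toAffine.Point} :
    redHom h P = P' ↔ PointRed φ P.1 P' := by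
  constructor
  · rintro rfl
    exact pointRed_redHom h P
  · intro h1
    exact (pointRed_redHom h P).unique h1

theorem redHom_eq_zero_iff (h : CurveRed φ V U) {P : E0 h} :
    redHom h P = 0 ↔ P.1 = 0 ∨ ∃ (x y : L) (h : V.toAffine.Nonsingular x y),
      P.1 = .some x y h ∧ x ∉ A := by
  rw [redHom_eq_iff, pointRed_zero_right_iff]

theorem mem_E0_of_Δ_ne_zero (h : CurveRed φ V U) (hU : U.Δ ≠ 0) (P : V.toAffine.Point) :
    P ∈ E0 h := by
  rcases P with _ | ⟨x, y, hxy⟩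
  · exact (E0 h).zero_mem
  · rw [some_mem_E0_iff]
    by_cases hx : x ∈ A
    · refine Or.inr ⟨hx, h.mem_y hxy.1 hx, ?_⟩
      rw [← WeierstrassCurve.Affine.equation_iff_nonsingular_of_Δ_ne_zero hU]
      exact h.equation hxy.1 ⟨hx, rfl⟩ ⟨_, rfl⟩
    · exact Or.inl hx

theorem E0_eq_top (h : CurveRed φ V U) (hU : U.Δ ≠ 0) : E0 h = ⊤ :=
  eq_top_iff.mpr fun P _ => mem_E0_of_Δ_ne_zero h hU P

/-- The reduction homomorphism in the case of good reduction. -/
noncomputable def redHomOfGood (h : CurveRed φ V U) (hU : U.Δ ≠ 0) :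
    V.toAffine.Point →+ U.toAffine.Point where
  toFun P := redHom h ⟨P, mem_E0_of_Δ_ne_zero h hU P⟩
  map_zero' := (redHom_eq_iff h).mpr (pointRed_zero_iff.mpr rfl)
  map_add' P Q := by
    rw [redHom_eq_iff]
    exact (pointRed_redHom h ⟨P, mem_E0_of_Δ_ne_zero h hU P⟩).add h
      (pointRed_redHom h ⟨Q, mem_E0_of_Δ_ne_zero h hU Q⟩)

theorem pointRed_redHomOfGood (h : CurveRed φ V U) (hU : U.Δ ≠ 0) (P : V.toAffine.Point) :
    PointRed φ P (redHomOfGood h hU P) :=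
  pointRed_redHom h ⟨P, mem_E0_of_Δ_ne_zero h hU P⟩

theorem redHomOfGood_eq_iff (h : CurveRed φ V U) (hU : U.Δ ≠ 0) {P : V.toAffine.Point}
    {P' : U.toAffine.Point} : redHomOfGood h hU P = P' ↔ PointRed φ P P' := by
  constructor
  · rintro rfl
    exact pointRed_redHomOfGood h hU P
  · intro h1
    exact (pointRed_redHomOfGood h hU P).unique h1

theorem redHomOfGood_eq_zero_iff (h : CurveRed φ V U) (hU : U.Δ ≠ 0) {P : V.toAffine.Point} :
    redHomOfGood h hU P = 0 ↔ P = 0 ∨ ∃ (x y : L) (h : V.toAffine.Nonsingular x y),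
      P = .some x y h ∧ x ∉ A := by
  rw [redHomOfGood_eq_iff, pointRed_zero_right_iff]

/-- two points of `E0` with the same reduction differ by a point of the kernel of reduction -/
theorem PointRed.sub_same (h : CurveRed φ V U) {P Q : V.toAffine.Point} {P' : U.toAffine.Point}
    (hP : PointRed φ P P') (hQ : PointRed φ Q P') : PointRed φ (P - Q) (0 : U.toAffine.Point) := by
  have := hP.sub h hQ
  rwa [sub_self] at this

end Add

end Fermat.Agent.RedHom
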